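import Fermat.Agent.S22.Basics

set_option autoImplicit false

/-!
# Vertical periods of `T_p h` and `U_p h`
-/

namespace Fermat.Agent.S22

open UpperHalfPlane hiding I
open Complex MeasureTheory Set Filter Polynomial
open scoped MatrixGroups ModularForm Manifold Topology

/-- The integrability hypothesis on `h` used throughout this file. -/
def hecke_HI (h : ℍ → ℂ) : Prop :=
  ∀ (y : ℚ) (Q : ℂ[X]), IntegrableOn
    (fun t : ℝ => h (ofComplex ((y : ℂ) + t * I)) * Q.eval ((y : ℂ) + t * I)) (Ioi 0)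

theorem hecke_im_pos (y : ℚ) {t : ℝ} (ht : 0 < t) : 0 < ((y : ℂ) + t * I).im := by
  simpa using ht

theorem hecke_smul_heckeMatrix {p : ℕ} (hp : 0 < p) (j : ℕ) (x : ℚ) {t : ℝ} (ht : 0 < t) :
    ModularForm.heckeMatrix p j • ofComplex ((x : ℂ) + t * I) =
      ofComplex ((((x + j) / p : ℚ) : ℂ) + (((p : ℝ)⁻¹ * t : ℝ) : ℂ) * I) := by
  have hp' : (p : ℂ) ≠ 0 := by exact_mod_cast hp.ne'
  have hpR : (0 : ℝ) < p := by exact_mod_cast hp
  have ht' : 0 < (p : ℝ)⁻¹ * t := by positivity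
  rw [ofComplex_apply_of_im_pos (hecke_im_pos x ht),
    ofComplex_apply_of_im_pos (hecke_im_pos _ ht')]
  apply UpperHalfPlane.ext
  rw [ModularForm.coe_heckeMatrix_smul hp.ne']
  push_cast
  field_simp
  ring

theorem hecke_smul_heckeDiagMatrix {p : ℕ} (hp : 0 < p) (x : ℚ) {t : ℝ} (ht : 0 < t) :
    ModularForm.heckeDiagMatrix p • ofComplex ((x : ℂ) + t * I) =
      ofComplex ((((p : ℚ) * x : ℚ) : ℂ) + (((p : ℝ) * t : ℝ) : ℂ) * I) := by
  have hpR : (0 : ℝ) < p := by exact_mod_cast hp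
  have ht' : 0 < (p : ℝ) * t := by positivity
  rw [ofComplex_apply_of_im_pos (hecke_im_pos x ht),
    ofComplex_apply_of_im_pos (hecke_im_pos _ ht')]
  apply UpperHalfPlane.ext
  rw [ModularForm.coe_heckeDiagMatrix_smul hp.ne']
  push_cast
  ring

/-- Substitution `t ↦ c * t` in an integral over `(0, ∞)`. -/
theorem hecke_integral_comp_mul (G : ℝ → ℂ) {c : ℝ} (hc : 0 < c) :
    ∫ t in Ioi (0 : ℝ), G (c * t) = (c : ℂ)⁻¹ * ∫ t in Ioi (0 : ℝ), G t := by
  rw [integral_comp_mul_left_Ioi G 0 hc, mul_zero, Complex.real_smul]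
  push_cast
  rfl

theorem hecke_integrableOn_comp_mul {G : ℝ → ℂ} (hG : IntegrableOn G (Ioi 0)) {c : ℝ}
    (hc : 0 < c) : IntegrableOn (fun t => G (c * t)) (Ioi 0) := by
  rw [integrableOn_Ioi_comp_mul_left_iff G 0 hc, mul_zero]
  exact hG

/-- The vertical period of `U_p h` against an arbitrary polynomial. -/
theorem hecke_vint_heckeU_aux (k : ℤ) {p : ℕ} (hp : 0 < p) (x : ℚ) (Q : ℂ[X]) {h : ℍ → ℂ}
    (hh : hecke_HI h) :
    IntegrableOn (fun t : ℝ => ModularForm.heckeU k p h (ofComplex ((x : ℂ) + t * I)) *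
        Q.eval ((x : ℂ) + t * I)) (Ioi 0) ∧
      vint (ModularForm.heckeU k p h) Q (x : ℂ) =
        ∑ j ∈ Finset.range p,
          vint h (Q.comp (C (p : ℂ) * X - C (j : ℂ))) (((x + j) / p : ℚ) : ℂ) := by
  have hp' : (p : ℂ) ≠ 0 := by exact_mod_cast hp.ne'
  have hpR : (0 : ℝ) < p := by exact_mod_cast hp
  have hpi : (0 : ℝ) < (p : ℝ)⁻¹ := inv_pos.mpr hpR
  set G : ℕ → ℝ → ℂ := fun j s =>
    h (ofComplex ((((x + j) / p : ℚ) : ℂ) + s * I)) *
      (Q.comp (C (p : ℂ) * X - C (j : ℂ))).eval ((((x + j) / p : ℚ) : ℂ) + s * I) with hG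
  have hGint : ∀ j, IntegrableOn (G j) (Ioi 0) := fun j => hh _ _
  have hpt : ∀ t ∈ Ioi (0 : ℝ),
      ModularForm.heckeU k p h (ofComplex ((x : ℂ) + t * I)) * Q.eval ((x : ℂ) + t * I) =
        ∑ j ∈ Finset.range p, (p : ℂ)⁻¹ * G j ((p : ℝ)⁻¹ * t) := by
    intro t ht
    rw [ModularForm.heckeU_apply k hp.ne', mul_assoc, Finset.sum_mul, Finset.mul_sum]
    refine Finset.sum_congr rfl fun j _ => ?_
    rw [hecke_smul_heckeMatrix hp j x ht]
    have e : (p : ℂ) * ((((x + j) / p : ℚ) : ℂ) + (((p : ℝ)⁻¹ * t : ℝ) : ℂ) * I) - j =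
        x + t * I := by
      push_cast
      field_simp
      ring
    simp only [hG, eval_comp, eval_sub, eval_mul, eval_C, eval_X, e]
  have hint : ∀ j ∈ Finset.range p,
      IntegrableOn (fun t : ℝ => (p : ℂ)⁻¹ * G j ((p : ℝ)⁻¹ * t)) (Ioi 0) := fun j _ =>
    (hecke_integrableOn_comp_mul (hGint j) hpi).const_mul _
  refine ⟨?_, ?_⟩
  · refine IntegrableOn.congr_fun ?_ (fun t ht => (hpt t ht).symm) measurableSet_Ioi
    exact integrable_finsetSum _ hint
  · rw [vint, setIntegral_congr_fun measurableSet_Ioi hpt, integral_finsetSum _ hint]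
    refine Finset.sum_congr rfl fun j _ => ?_
    rw [integral_const_mul, hecke_integral_comp_mul (G j) hpi, Complex.ofReal_inv,
      Complex.ofReal_natCast, inv_inv, ← mul_assoc, inv_mul_cancel₀ hp', one_mul]
    rfl

/-- The polynomial `p ^ n * Q (X / p)` for `Q` of degree `≤ n`. -/
noncomputable def hecke_scale {R : Type} [CommRing R] (n p : ℕ) (Q : R[X]) : R[X] :=
  ∑ j ∈ Finset.range (n + 1), C (Q.coeff j * (p : R) ^ (n - j)) * X ^ j

theorem hecke_scale_eval {R : Type} [CommRing R] (n p : ℕ) (Q : R[X]) (hQ : Q.natDegree ≤ n)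
    (w : R) : (hecke_scale n p Q).eval ((p : R) * w) = (p : R) ^ n * Q.eval w := by
  rw [eval_eq_sum_range' (Nat.lt_succ_of_le hQ), hecke_scale, eval_finsetSum, Finset.mul_sum]
  refine Finset.sum_congr rfl fun j hj => ?_
  have hj' : j ≤ n := Nat.lt_succ_iff.mp (Finset.mem_range.mp hj)
  rw [eval_mul, eval_C, eval_pow, eval_X, mul_pow, ← Nat.sub_add_cancel hj', pow_add,
    Nat.sub_add_cancel hj']
  ring

theorem hecke_scale_natDegree_le {R : Type} [CommRing R] (n p : ℕ) (Q : R[X]) :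
    (hecke_scale n p Q).natDegree ≤ n := by
  refine natDegree_sum_le_of_forall_le _ _ fun j hj => ?_
  exact (natDegree_C_mul_X_pow_le _ _).trans (Nat.lt_succ_iff.mp (Finset.mem_range.mp hj))

theorem hecke_scale_map (n p : ℕ) (P : ℤ[X]) :
    hecke_scale n p (P.map (Int.castRingHom ℂ)) = (hecke_scale n p P).map (Int.castRingHom ℂ) := by
  simp [hecke_scale, Polynomial.map_sum]

/-- The vertical period of the diagonal term of `T_p h` against a polynomial of degree `≤ n`. -/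
theorem hecke_vint_diag_aux (k : ℤ) (n : ℕ) (hk : k = n + 2) {p : ℕ} (hp : 0 < p) (x : ℚ)
    (Q : ℂ[X]) (hQ : Q.natDegree ≤ n) {h : ℍ → ℂ} (hh : hecke_HI h) :
    IntegrableOn (fun t : ℝ => (h ∣[k] ModularForm.heckeDiagMatrix p)
        (ofComplex ((x : ℂ) + t * I)) * Q.eval ((x : ℂ) + t * I)) (Ioi 0) ∧
      vint (h ∣[k] ModularForm.heckeDiagMatrix p) Q (x : ℂ) =
        vint h (hecke_scale n p Q) (((p : ℚ) * x : ℚ) : ℂ) := by
  have hp' : (p : ℂ) ≠ 0 := by exact_mod_cast hp.ne'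
  have hpR : (0 : ℝ) < p := by exact_mod_cast hp
  set G : ℝ → ℂ := fun s =>
    h (ofComplex ((((p : ℚ) * x : ℚ) : ℂ) + s * I)) *
      (hecke_scale n p Q).eval ((((p : ℚ) * x : ℚ) : ℂ) + s * I) with hG
  have hGint : IntegrableOn G (Ioi 0) := hh _ _
  have hk1 : k - 1 = ((n + 1 : ℕ) : ℤ) := by rw [hk]; push_cast; ring
  have hpt : ∀ t ∈ Ioi (0 : ℝ),
      (h ∣[k] ModularForm.heckeDiagMatrix p) (ofComplex ((x : ℂ) + t * I)) *
        Q.eval ((x : ℂ) + t * I) = (p : ℂ) * G ((p : ℝ) * t) := by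
    intro t ht
    rw [ModularForm.slash_heckeDiagMatrix_apply k hp.ne', hecke_smul_heckeDiagMatrix hp x ht,
      hk1, zpow_natCast]
    have e : (((p : ℚ) * x : ℚ) : ℂ) + (((p : ℝ) * t : ℝ) : ℂ) * I =
        (p : ℂ) * ((x : ℂ) + t * I) := by
      push_cast
      ring
    simp only [hG]
    rw [e, hecke_scale_eval n p Q hQ]
    ring
  have hint : IntegrableOn (fun t : ℝ => (p : ℂ) * G ((p : ℝ) * t)) (Ioi 0) :=
    (hecke_integrableOn_comp_mul hGint hpR).const_mul _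
  refine ⟨?_, ?_⟩
  · exact IntegrableOn.congr_fun hint (fun t ht => (hpt t ht).symm) measurableSet_Ioi
  · rw [vint, setIntegral_congr_fun measurableSet_Ioi hpt, integral_const_mul,
      hecke_integral_comp_mul G hpR, Complex.ofReal_natCast, ← mul_assoc, mul_inv_cancel₀ hp',
      one_mul]
    rfl

/-- The vertical period of `T_p h` against a polynomial of degree `≤ n`. -/
theorem hecke_vint_heckeT_aux (k : ℤ) (n : ℕ) (hk : k = n + 2) {p : ℕ} (hp : 0 < p) (x : ℚ)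
    (Q : ℂ[X]) (hQ : Q.natDegree ≤ n) {h : ℍ → ℂ} (hh : hecke_HI h) :
    vint (ModularForm.heckeT k p h) Q (x : ℂ) =
      (∑ j ∈ Finset.range p,
          vint h (Q.comp (C (p : ℂ) * X - C (j : ℂ))) (((x + j) / p : ℚ) : ℂ)) +
        vint h (hecke_scale n p Q) (((p : ℚ) * x : ℚ) : ℂ) := by
  obtain ⟨hU1, hU2⟩ := hecke_vint_heckeU_aux k hp x Q hh
  obtain ⟨hD1, hD2⟩ := hecke_vint_diag_aux k n hk hp x Q hQ hh
  rw [← hU2, ← hD2, vint, vint, vint, ← integral_add hU1 hD1]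
  refine integral_congr_ae (Eventually.of_forall fun t => ?_)
  simp only [ModularForm.heckeT_eq_heckeU_add, Pi.add_apply]
  ring

/-- Expansion of a vertical period against a polynomial of degree `≤ n` into monomial periods. -/
theorem hecke_vint_expand (n : ℕ) (R : ℂ[X]) (hR : R.natDegree ≤ n) (y : ℚ) {h : ℍ → ℂ}
    (hh : hecke_HI h) :
    vint h R (y : ℂ) = ∑ j ∈ Finset.range (n + 1), R.coeff j * vint h (X ^ j) (y : ℂ) := by
  have hpt : ∀ t : ℝ, h (ofComplex ((y : ℂ) + t * I)) * R.eval ((y : ℂ) + t * I) =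
      ∑ j ∈ Finset.range (n + 1), R.coeff j *
        (h (ofComplex ((y : ℂ) + t * I)) * (X ^ j : ℂ[X]).eval ((y : ℂ) + t * I)) := by
    intro t
    rw [eval_eq_sum_range' (Nat.lt_succ_of_le hR), Finset.mul_sum]
    refine Finset.sum_congr rfl fun j _ => ?_
    rw [eval_pow, eval_X]
    ring
  have hint : ∀ j ∈ Finset.range (n + 1), IntegrableOn (fun t : ℝ => R.coeff j *
      (h (ofComplex ((y : ℂ) + t * I)) * (X ^ j : ℂ[X]).eval ((y : ℂ) + t * I))) (Ioi 0) :=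
    fun j _ => (hh y (X ^ j)).const_mul _
  rw [vint, integral_congr_ae (Eventually.of_forall hpt), integral_finsetSum _ hint]
  refine Finset.sum_congr rfl fun j _ => ?_
  rw [integral_const_mul]
  rfl

/-- `Φ` is, uniformly in `h`, an integral combination of monomial periods at rational cusps. -/
def hecke_IsComb (n : ℕ) (Φ : (ℍ → ℂ) → ℂ) : Prop :=
  ∃ l : List (ℤ × ℚ × ℕ), (∀ t ∈ l, t.2.2 ≤ n) ∧
    ∀ h : ℍ → ℂ, hecke_HI h →
      Φ h = (l.map fun t => (t.1 : ℂ) * vint h (X ^ t.2.2) (t.2.1 : ℂ)).sum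

theorem hecke_IsComb.zero (n : ℕ) : hecke_IsComb n (fun _ => 0) :=
  ⟨[], by simp, by simp⟩

theorem hecke_IsComb.add {n : ℕ} {Φ Ψ : (ℍ → ℂ) → ℂ} (h1 : hecke_IsComb n Φ)
    (h2 : hecke_IsComb n Ψ) : hecke_IsComb n (fun h => Φ h + Ψ h) := by
  obtain ⟨l1, hl1, e1⟩ := h1
  obtain ⟨l2, hl2, e2⟩ := h2
  refine ⟨l1 ++ l2, ?_, ?_⟩
  · intro t ht
    rcases List.mem_append.mp ht with ht | ht
    · exact hl1 t ht
    · exact hl2 t ht
  · intro h hh
    show Φ h + Ψ h = _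
    rw [List.map_append, List.sum_append, e1 h hh, e2 h hh]

theorem hecke_IsComb.congr {n : ℕ} {Φ Ψ : (ℍ → ℂ) → ℂ} (h1 : hecke_IsComb n Φ)
    (H : ∀ h : ℍ → ℂ, hecke_HI h → Ψ h = Φ h) : hecke_IsComb n Ψ := by
  obtain ⟨l1, hl1, e1⟩ := h1
  exact ⟨l1, hl1, fun h hh => (H h hh).trans (e1 h hh)⟩

theorem hecke_IsComb.sum {n : ℕ} {ι : Type} (s : Finset ι) (Φ : ι → (ℍ → ℂ) → ℂ)
    (H : ∀ i ∈ s, hecke_IsComb n (Φ i)) : hecke_IsComb n (fun h => ∑ i ∈ s, Φ i h) := by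
  classical
  induction s using Finset.induction_on with
  | empty => simpa using hecke_IsComb.zero n
  | insert a s ha ih =>
    have h1 := (H a (Finset.mem_insert_self a s)).add
      (ih fun i hi => H i (Finset.mem_insert_of_mem hi))
    exact h1.congr fun h _ => Finset.sum_insert ha

theorem hecke_IsComb.single (n : ℕ) (m : ℤ) (y : ℚ) (j : ℕ) (hj : j ≤ n) :
    hecke_IsComb n (fun h => (m : ℂ) * vint h (X ^ j) (y : ℂ)) :=
  ⟨[(m, y, j)], by simpa using hj, by simp⟩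

theorem hecke_IsComb_vint_int (n : ℕ) (R : ℤ[X]) (hR : R.natDegree ≤ n) (y : ℚ) :
    hecke_IsComb n (fun h => vint h (R.map (Int.castRingHom ℂ)) (y : ℂ)) := by
  refine (hecke_IsComb.sum (Finset.range (n + 1))
    (fun j h => ((R.coeff j : ℤ) : ℂ) * vint h (X ^ j) (y : ℂ))
    (fun j hj => hecke_IsComb.single n _ y j (Nat.lt_succ_iff.mp (Finset.mem_range.mp hj)))).congr
    fun h hh => ?_
  rw [hecke_vint_expand n _ (natDegree_map_le.trans hR) y hh]
  refine Finset.sum_congr rfl fun j _ => ?_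
  rw [coeff_map, eq_intCast]

theorem hecke_comp_natDegree_le (n p j : ℕ) (P : ℤ[X]) (hP : P.natDegree ≤ n) :
    (P.comp (C (p : ℤ) * X - C (j : ℤ))).natDegree ≤ n := by
  have h1 : (C (p : ℤ) * X - C (j : ℤ) : ℤ[X]).natDegree ≤ 1 := by
    refine (natDegree_sub_le _ _).trans (max_le ?_ ?_)
    · exact (natDegree_C_mul_le _ _).trans natDegree_X_le
    · simp
  calc (P.comp (C (p : ℤ) * X - C (j : ℤ))).natDegree
      ≤ P.natDegree * (C (p : ℤ) * X - C (j : ℤ) : ℤ[X]).natDegree := natDegree_comp_le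
    _ ≤ n * 1 := Nat.mul_le_mul hP h1
    _ = n := mul_one n

theorem hecke_comp_map (p j : ℕ) (P : ℤ[X]) :
    (P.map (Int.castRingHom ℂ)).comp (C (p : ℂ) * X - C (j : ℂ)) =
      (P.comp (C (p : ℤ) * X - C (j : ℤ))).map (Int.castRingHom ℂ) := by
  simp [Polynomial.map_comp]

theorem hecke_IsComb_heckeU (k : ℤ) (n : ℕ) (p : ℕ) (hp : 0 < p) (x : ℚ) (P : ℤ[X])
    (hP : P.natDegree ≤ n) :
    hecke_IsComb n (fun h => vint (ModularForm.heckeU k p h) (P.map (Int.castRingHom ℂ))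
      (x : ℂ)) := by
  refine (hecke_IsComb.sum (Finset.range p)
    (fun j h => vint h ((P.comp (C (p : ℤ) * X - C (j : ℤ))).map (Int.castRingHom ℂ))
      (((x + j) / p : ℚ) : ℂ))
    (fun j _ => hecke_IsComb_vint_int n _ (hecke_comp_natDegree_le n p j P hP) _)).congr
    fun h hh => ?_
  rw [(hecke_vint_heckeU_aux k hp x _ hh).2]
  refine Finset.sum_congr rfl fun j _ => ?_
  rw [hecke_comp_map]

theorem hecke_IsComb_heckeT (k : ℤ) (n : ℕ) (hk : k = n + 2) (p : ℕ) (hp : 0 < p) (x : ℚ)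
    (P : ℤ[X]) (hP : P.natDegree ≤ n) :
    hecke_IsComb n (fun h => vint (ModularForm.heckeT k p h) (P.map (Int.castRingHom ℂ))
      (x : ℂ)) := by
  refine ((hecke_IsComb.sum (Finset.range p)
    (fun j h => vint h ((P.comp (C (p : ℤ) * X - C (j : ℤ))).map (Int.castRingHom ℂ))
      (((x + j) / p : ℚ) : ℂ))
    (fun j _ => hecke_IsComb_vint_int n _ (hecke_comp_natDegree_le n p j P hP) _)).add
    (hecke_IsComb_vint_int n (hecke_scale n p P) (hecke_scale_natDegree_le n p P)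
      ((p : ℚ) * x))).congr fun h hh => ?_
  rw [hecke_vint_heckeT_aux k n hk hp x _ (natDegree_map_le.trans hP) hh, hecke_scale_map]
  congr 1
  refine Finset.sum_congr rfl fun j _ => ?_
  rw [hecke_comp_map]

/-- The vertical period at a rational cusp `x` of `U_p h` against an integral polynomial of degree
`≤ n` is an integral linear combination (independent of `h`) of vertical periods of `h` against
monomials `X^j`, `j ≤ n`, at rational cusps. -/
theorem vint_heckeU (k : ℤ) (n : ℕ) (p : ℕ) (hp : 0 < p) (x : ℚ) (P : ℤ[X])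
    (hP : P.natDegree ≤ n) :
    ∃ l : List (ℤ × ℚ × ℕ), (∀ t ∈ l, t.2.2 ≤ n) ∧
      ∀ h : ℍ → ℂ,
        (∀ (y : ℚ) (Q : ℂ[X]), IntegrableOn
          (fun t : ℝ => h (ofComplex ((y : ℂ) + t * I)) * Q.eval ((y : ℂ) + t * I)) (Ioi 0)) →
        vint (ModularForm.heckeU k p h) (P.map (Int.castRingHom ℂ)) (x : ℂ) =
          (l.map fun t => (t.1 : ℂ) * vint h (X ^ t.2.2) (t.2.1 : ℂ)).sum :=
  hecke_IsComb_heckeU k n p hp x P hP

/-- The same for `T_p h` (weight `k = n + 2`). -/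
theorem vint_heckeT (k : ℤ) (n : ℕ) (hk : k = n + 2) (p : ℕ) (hp : 0 < p) (x : ℚ) (P : ℤ[X])
    (hP : P.natDegree ≤ n) :
    ∃ l : List (ℤ × ℚ × ℕ), (∀ t ∈ l, t.2.2 ≤ n) ∧
      ∀ h : ℍ → ℂ,
        (∀ (y : ℚ) (Q : ℂ[X]), IntegrableOn
          (fun t : ℝ => h (ofComplex ((y : ℂ) + t * I)) * Q.eval ((y : ℂ) + t * I)) (Ioi 0)) →
        vint (ModularForm.heckeT k p h) (P.map (Int.castRingHom ℂ)) (x : ℂ) =
          (l.map fun t => (t.1 : ℂ) * vint h (X ^ t.2.2) (t.2.1 : ℂ)).sum :=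
  hecke_IsComb_heckeT k n hk p hp x P hP

end Fermat.Agent.S22
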