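import Fermat.Agent.S22.Deriv

set_option autoImplicit false

/-!
# The Eichler integral of a cuspidal function
-/

namespace Fermat.Agent.S22

open UpperHalfPlane hiding I
open Complex MeasureTheory Set Filter Polynomial
open scoped MatrixGroups ModularForm Manifold Topology

/-- The Eichler integral `F(τ) = ∫_0^∞ h(τ + i t) (i t)^n dt = ∫_τ^{i∞} h(z) (z - τ)^n dz / i`. -/
noncomputable def eichler (n : ℕ) (h : ℍ → ℂ) (τ : ℍ) : ℂ :=
  vint h ((X - C (τ : ℂ)) ^ n) (τ : ℂ)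

/-- The generalised Eichler integral `z ↦ ∫_0^∞ h(z + i t) (i t)^m Q(z + i t) dt`
as a function on `ℂ`. -/
noncomputable def eich_E (h : ℍ → ℂ) (m : ℕ) (Q : ℂ[X]) (z : ℂ) : ℂ :=
  vint h ((X - C z) ^ m * Q) z

theorem eich_eichler_eq (n : ℕ) (h : ℍ → ℂ) (τ : ℍ) : eichler n h τ = eich_E h n 1 (τ : ℂ) := by
  simp [eichler, eich_E]

theorem eich_eichler_ofComplex (n : ℕ) (h : ℍ → ℂ) {w : ℂ} (hw : 0 < w.im) :
    eichler n h (ofComplex w) = eich_E h n 1 w := by
  have h1 : ((ofComplex w : ℍ) : ℂ) = w := by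
    rw [ofComplex_apply_of_im_pos hw]
  rw [eich_eichler_eq, h1]

theorem eich_isOpen : IsOpen {z : ℂ | 0 < z.im} := isOpen_lt continuous_const continuous_im

theorem eich_E_succ {k : ℤ} {h : ℍ → ℂ} (hh : Cuspidal k h) (m : ℕ) (Q : ℂ[X]) {z : ℂ}
    (hz : 0 < z.im) :
    eich_E h (m + 1) Q z = eich_E h m (X * Q) z - z * eich_E h m Q z := by
  unfold eich_E
  have h1 : (X - C z) ^ (m + 1) * Q = (X - C z) ^ m * (X * Q) + C (-z) * ((X - C z) ^ m * Q) := by
    rw [map_neg]; ring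
  rw [h1, hh.vint_add_poly _ _ hz, vint_C_mul_poly]
  ring

theorem eich_hasDerivAt_zero {k : ℤ} {h : ℍ → ℂ} (hh : Cuspidal k h) (Q : ℂ[X]) {z : ℂ}
    (hz : 0 < z.im) :
    HasDerivAt (eich_E h 0 Q) (I * (h (ofComplex z) * Q.eval z)) z := by
  have h1 : eich_E h 0 Q = vint h Q := by
    funext w
    simp [eich_E]
  rw [h1]
  exact hh.hasDerivAt_vint Q hz

theorem eich_hasDerivAt_succ {k : ℤ} {h : ℍ → ℂ} (hh : Cuspidal k h) (m : ℕ) :
    ∀ (Q : ℂ[X]) {z : ℂ} (_ : 0 < z.im),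
      HasDerivAt (eich_E h (m + 1) Q) (-((m : ℂ) + 1) * eich_E h m Q z) z := by
  induction m with
  | zero =>
    intro Q z hz
    have h1 := eich_hasDerivAt_zero hh (X * Q) hz
    have h2 := eich_hasDerivAt_zero hh Q hz
    have h3 := h1.sub ((hasDerivAt_id z).mul h2)
    have hev : eich_E h (0 + 1) Q =ᶠ[𝓝 z]
        (eich_E h 0 (X * Q) - id * eich_E h 0 Q) := by
      filter_upwards [eich_isOpen.mem_nhds hz] with w hw
      exact eich_E_succ hh 0 Q hw
    refine (h3.congr_of_eventuallyEq hev).congr_deriv ?_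
    simp only [eval_mul, eval_X, id, Nat.cast_zero]
    ring
  | succ m ih =>
    intro Q z hz
    have h1 := ih (X * Q) hz
    have h2 := ih Q hz
    have h3 := h1.sub ((hasDerivAt_id z).mul h2)
    have hev : eich_E h (m + 1 + 1) Q =ᶠ[𝓝 z]
        (eich_E h (m + 1) (X * Q) - id * eich_E h (m + 1) Q) := by
      filter_upwards [eich_isOpen.mem_nhds hz] with w hw
      exact eich_E_succ hh (m + 1) Q hw
    refine (h3.congr_of_eventuallyEq hev).congr_deriv ?_
    have e := eich_E_succ hh m Q hz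
    rw [e]
    simp only [id, Nat.cast_add, Nat.cast_one]
    ring

theorem eich_E_zero_descend {k : ℤ} {h : ℍ → ℂ} (hh : Cuspidal k h) (m : ℕ) (Q : ℂ[X])
    (hzero : ∀ z : ℂ, 0 < z.im → eich_E h (m + 1) Q z = 0) :
    ∀ z : ℂ, 0 < z.im → eich_E h m Q z = 0 := by
  intro z hz
  have h1 := eich_hasDerivAt_succ hh m Q hz
  have h2 : HasDerivAt (eich_E h (m + 1) Q) 0 z := by
    refine (hasDerivAt_const z (0 : ℂ)).congr_of_eventuallyEq ?_
    filter_upwards [eich_isOpen.mem_nhds hz] with w hw using hzero w hw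
  have h3 := h1.unique h2
  have h4 : (-((m : ℂ) + 1)) ≠ 0 := by
    rw [neg_ne_zero]
    exact_mod_cast Nat.succ_ne_zero m
  exact (mul_eq_zero.mp h3).resolve_left h4

theorem Cuspidal.mdifferentiable_eichler {k : ℤ} {h : ℍ → ℂ} (hh : Cuspidal k h) (n : ℕ) :
    MDifferentiable 𝓘(ℂ) 𝓘(ℂ) (eichler n h) := by
  rw [UpperHalfPlane.mdifferentiable_iff]
  intro z hz
  have hz' : 0 < z.im := hz
  have hd : DifferentiableAt ℂ (eich_E h n 1) z := by
    cases n with
    | zero => exact (eich_hasDerivAt_zero hh 1 hz').differentiableAt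
    | succ m => exact (eich_hasDerivAt_succ hh m 1 hz').differentiableAt
  refine hd.differentiableWithinAt.congr ?_ ?_
  · intro w hw
    exact eich_eichler_ofComplex n h hw
  · exact eich_eichler_ofComplex n h hz'

theorem Cuspidal.isZeroAtImInfty_eichler {k : ℤ} {h : ℍ → ℂ} (hh : Cuspidal k h) (n : ℕ) :
    IsZeroAtImInfty (eichler n h) := by
  obtain ⟨c, hc, hO⟩ := hh.2 1
  rw [SlashAction.slash_one] at hO
  obtain ⟨K, hC⟩ := hO.bound
  obtain ⟨A, hA⟩ := (atImInfty_mem _).mp hC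
  have hint : IntegrableOn (fun t : ℝ => t ^ n * Real.exp (-c * t)) (Ioi 0) := by
    have h1 := integrableOn_rpow_mul_exp_neg_mul_rpow (p := 1) (s := n) (b := c)
      (by have : (0 : ℝ) ≤ n := Nat.cast_nonneg n; linarith) one_pos hc
    refine h1.congr_fun (fun t ht => ?_) measurableSet_Ioi
    simp only [Real.rpow_natCast, Real.rpow_one]
  refine UpperHalfPlane.IsZeroAtImInfty.of_exp_decay ⟨c, hc, ?_⟩
  refine Asymptotics.IsBigO.of_bound (K * ∫ t in Ioi (0 : ℝ), t ^ n * Real.exp (-c * t)) ?_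
  refine (atImInfty_mem _).mpr ⟨A, fun τ hτ => ?_⟩
  show ‖eichler n h τ‖ ≤ _ * ‖Real.exp (-c * τ.im)‖
  have hbound : ∀ t ∈ Ioi (0 : ℝ),
      ‖h (ofComplex (τ + t * I)) * ((X - C (τ : ℂ)) ^ n).eval (τ + t * I)‖
        ≤ K * Real.exp (-c * τ.im) * (t ^ n * Real.exp (-c * t)) := by
    intro t ht
    have ht0 : (0 : ℝ) < t := ht
    have him0 : ((τ : ℂ) + t * I).im = τ.im + t := by simp
    have him : 0 < ((τ : ℂ) + t * I).im := by rw [him0]; linarith [τ.im_pos]
    have him2 : (ofComplex ((τ : ℂ) + t * I)).im = τ.im + t := by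
      rw [ofComplex_apply_of_im_pos him]
      exact him0
    have h1 : ‖h (ofComplex ((τ : ℂ) + t * I))‖
        ≤ K * ‖Real.exp (-c * (ofComplex ((τ : ℂ) + t * I)).im)‖ :=
      hA (ofComplex ((τ : ℂ) + t * I)) (by rw [him2]; linarith)
    rw [him2, Real.norm_eq_abs, abs_of_pos (Real.exp_pos _)] at h1
    have h2 : ((X - C (τ : ℂ)) ^ n).eval ((τ : ℂ) + t * I) = (t * I) ^ n := by simp
    rw [norm_mul, h2, norm_pow, norm_mul, Complex.norm_I, mul_one, Complex.norm_real,
      Real.norm_eq_abs, abs_of_pos ht0]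
    have h3 : Real.exp (-c * (τ.im + t)) = Real.exp (-c * τ.im) * Real.exp (-c * t) := by
      rw [← Real.exp_add]; ring_nf
    rw [h3] at h1
    calc ‖h (ofComplex ((τ : ℂ) + t * I))‖ * t ^ n
        ≤ K * (Real.exp (-c * τ.im) * Real.exp (-c * t)) * t ^ n :=
          mul_le_mul_of_nonneg_right h1 (by positivity)
      _ = K * Real.exp (-c * τ.im) * (t ^ n * Real.exp (-c * t)) := by ring
  have h5 := norm_integral_le_of_norm_le (μ := volume.restrict (Ioi (0 : ℝ)))
    (hint.const_mul (K * Real.exp (-c * τ.im)))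
    ((ae_restrict_iff' measurableSet_Ioi).mpr (ae_of_all _ hbound))
  rw [MeasureTheory.integral_const_mul] at h5
  rw [Real.norm_eq_abs, abs_of_pos (Real.exp_pos _)]
  unfold eichler vint
  linarith

/-- If the Eichler integral of `h` vanishes identically then so does `h`
(`F^{(n+1)}` is a nonzero multiple of `h`). -/
theorem Cuspidal.eq_zero_of_eichler_eq_zero {k : ℤ} {h : ℍ → ℂ} (hh : Cuspidal k h) (n : ℕ)
    (h0 : ∀ τ : ℍ, eichler n h τ = 0) : h = 0 := by
  have hall : ∀ m : ℕ, (∀ z : ℂ, 0 < z.im → eich_E h m 1 z = 0) →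
      ∀ z : ℂ, 0 < z.im → eich_E h 0 1 z = 0 := by
    intro m
    induction m with
    | zero => exact id
    | succ m ih =>
      intro hm
      exact ih (eich_E_zero_descend hh m 1 hm)
  have h00 := hall n (fun z hz => by rw [← eich_eichler_ofComplex n h hz]; exact h0 _)
  funext τ
  have hz : 0 < (τ : ℂ).im := τ.im_pos
  have h1 := eich_hasDerivAt_zero hh 1 hz
  have h2 : HasDerivAt (eich_E h 0 1) 0 (τ : ℂ) := by
    refine (hasDerivAt_const (τ : ℂ) (0 : ℂ)).congr_of_eventuallyEq ?_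
    filter_upwards [eich_isOpen.mem_nhds hz] with w hw using h00 w hw
  have h3 := h1.unique h2
  simpa using h3

end Fermat.Agent.S22
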