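import Fermat.Agent.S22.Moebius
import Fermat.Agent.S22.Eichler

set_option autoImplicit false

/-!
# A cusp form all of whose vertical periods vanish is zero
-/

namespace Fermat.Agent.S22

open UpperHalfPlane hiding I
open Complex MeasureTheory Set Filter Polynomial
open scoped MatrixGroups ModularForm Manifold Topology

/-- Step 1: if all monomial periods at rational points vanish, so do all periods against
polynomials of degree `≤ n`. -/
theorem sep_vint_poly_rat_eq_zero {k : ℤ} {h : ℍ → ℂ} (hh : Cuspidal k h) (n : ℕ)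
    (hf : ∀ (x : ℚ) (j : ℕ), j ≤ n → vint h (X ^ j) (x : ℂ) = 0)
    (Q : ℂ[X]) (hQ : Q.natDegree ≤ n) (x : ℚ) : vint h Q (x : ℂ) = 0 := by
  have hQ' : Q = ∑ j ∈ Finset.range (n + 1), C (Q.coeff j) * X ^ j := by
    conv_lhs => rw [Q.as_sum_range' (n + 1) (Nat.lt_succ_of_le hQ)]
    refine Finset.sum_congr rfl fun j _ => ?_
    rw [C_mul_X_pow_eq_monomial]
  rw [hQ', hh.vint_sum_poly_rat]
  refine Finset.sum_eq_zero fun j hj => ?_
  rw [vint_C_mul_poly, hf x j (Nat.lt_succ_iff.mp (Finset.mem_range.mp hj)), mul_zero]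

/-- The difference of two Möbius images. -/
theorem sep_smul_sub (g : SL(2, ℤ)) (z τ : ℍ) :
    ((g • z : ℍ) : ℂ) - ((g • τ : ℍ) : ℂ) = ((z : ℂ) - τ) / (denom g z * denom g τ) := by
  have hz : denom g z ≠ 0 := denom_ne_zero g z
  have hτ : denom g τ ≠ 0 := denom_ne_zero g τ
  have hdet : ((g 0 0 : ℤ) : ℂ) * (g 1 1 : ℤ) - (g 0 1 : ℤ) * (g 1 0 : ℤ) = 1 := by
    have := g.det_coe
    rw [Matrix.det_fin_two] at this
    exact_mod_cast this
  rw [coe_specialLinearGroup_apply, coe_specialLinearGroup_apply]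
  rw [ModularGroup.denom_apply] at hz hτ
  rw [ModularGroup.denom_apply, ModularGroup.denom_apply]
  simp only [algebraMap_int_eq, Int.coe_castRingHom, Complex.ofReal_intCast]
  rw [div_sub_div _ _ hz hτ]
  congr 1
  linear_combination ((z : ℂ) - τ) * hdet

/-- The transformed polynomial `(X - g τ)^n ∣ g` is `(denom g τ)^(-n) (X - τ)^n`, as functions on
the upper half plane. -/
theorem sep_polyAct_eval (n : ℕ) (g : SL(2, ℤ)) (τ z : ℍ) :
    (polyAct n g ((X - C ((g • τ : ℍ) : ℂ)) ^ n)).eval (z : ℂ) =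
      (C ((denom g τ ^ n)⁻¹) * (X - C (τ : ℂ)) ^ n).eval (z : ℂ) := by
  have hz : denom g z ≠ 0 := denom_ne_zero g z
  have hτ : denom g τ ≠ 0 := denom_ne_zero g τ
  have hdeg : ((X - C ((g • τ : ℍ) : ℂ)) ^ n).natDegree ≤ n := by
    refine (natDegree_pow_le).trans ?_
    rw [natDegree_X_sub_C, mul_one]
  rw [polyAct_eval n g _ hdeg z]
  simp only [eval_mul, eval_pow, eval_sub, eval_X, eval_C]
  rw [sep_smul_sub, div_pow, mul_pow]
  field_simp

/-- Two polynomials agreeing on the upper half plane give the same vertical integrals. -/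
theorem sep_vint_congr (h : ℍ → ℂ) (P P' : ℂ[X]) (τ : ℍ)
    (H : ∀ w : ℍ, P.eval (w : ℂ) = P'.eval (w : ℂ)) : vint h P (τ : ℂ) = vint h P' (τ : ℂ) := by
  unfold vint
  refine setIntegral_congr_fun measurableSet_Ioi fun t ht => ?_
  have ht' : (0 : ℝ) < t := ht
  have him : 0 < ((τ : ℂ) + t * I).im := by
    have e : ((τ : ℂ) + t * I).im = τ.im + t := by
      simp [UpperHalfPlane.coe_im]
    rw [e]
    linarith [τ.im_pos]
  have := H ⟨(τ : ℂ) + t * I, him⟩
  simp only at this ⊢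
  rw [this]

/-- Step 2 (key identity): `F (g τ) (c τ + d)^n = eichler (h ∣ g) τ`. -/
theorem sep_eichler_smul {k : ℤ} {n : ℕ} (hk : k = n + 2) {h : ℍ → ℂ} (hh : Cuspidal k h)
    (hf : ∀ (Q : ℂ[X]), Q.natDegree ≤ n → ∀ x : ℚ, vint h Q (x : ℂ) = 0)
    (g : SL(2, ℤ)) (τ : ℍ) :
    eichler n h (g • τ) * denom g τ ^ n = eichler n (h ∣[k] g) τ := by
  have hτ : denom g τ ≠ 0 := denom_ne_zero g τ
  have hdeg : ((X - C ((g • τ : ℍ) : ℂ)) ^ n).natDegree ≤ n := by
    refine (natDegree_pow_le).trans ?_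
    rw [natDegree_X_sub_C, mul_one]
  have key : vint h ((X - C ((g • τ : ℍ) : ℂ)) ^ n) ((g • τ : ℍ) : ℂ) =
      vint (h ∣[k] g) (polyAct n g ((X - C ((g • τ : ℍ) : ℂ)) ^ n)) (τ : ℂ) := by
    by_cases hc : g 1 0 = 0
    · exact hh.vint_smul_of_c_eq_zero hk g hc _ hdeg τ
    · rw [hh.vint_smul hk g hc _ hdeg τ, hf _ hdeg, add_zero]
  unfold eichler
  rw [key, sep_vint_congr _ _ _ τ (sep_polyAct_eval n g τ), vint_C_mul_poly]
  field_simp

/-- Step 3: the Eichler integral transforms with weight `-n`. -/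
theorem sep_eichler_slash {k : ℤ} {n : ℕ} (hk : k = n + 2) {h : ℍ → ℂ} (hh : Cuspidal k h)
    (hf : ∀ (Q : ℂ[X]), Q.natDegree ≤ n → ∀ x : ℚ, vint h Q (x : ℂ) = 0)
    (g : SL(2, ℤ)) :
    (eichler n h) ∣[(-(n : ℤ))] g = eichler n (h ∣[k] g) := by
  funext τ
  rw [ModularForm.SL_slash_apply, neg_neg, zpow_natCast]
  exact sep_eichler_smul hk hh hf g τ

/-- Step 4: the Eichler integral is a modular form of weight `-n`. -/
theorem sep_exists_modularForm (N : ℕ) [NeZero N] {k : ℤ} {n : ℕ} (hk : k = n + 2)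
    (w : ℤ) (hw : w = -(n : ℤ)) (f : CuspForm (CongruenceSubgroup.Gamma0 N) k)
    (hf : ∀ (Q : ℂ[X]), Q.natDegree ≤ n → ∀ x : ℚ, vint (⇑f) Q (x : ℂ) = 0) :
    ∃ Fm : ModularForm (CongruenceSubgroup.Gamma0 N) w, ⇑Fm = eichler n ⇑f := by
  subst hw
  have hh : Cuspidal k ⇑f := cuspidal_of_cuspForm f
  refine ⟨{ toFun := eichler n ⇑f
            slash_action_eq' := ?_
            holo' := hh.mdifferentiable_eichler n
            bdd_at_cusps' := ?_ }, rfl⟩
  · intro γ hγ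
    obtain ⟨γ', hγ', rfl⟩ := Subgroup.mem_map.mp hγ
    have h1 : (⇑f) ∣[k] γ' = ⇑f := SlashInvariantFormClass.slash_action_eq f _ hγ
    have h2 := sep_eichler_slash hk hh hf γ'
    rw [h1] at h2
    exact h2
  · intro c hc
    rw [Subgroup.IsArithmetic.isCusp_iff_isCusp_SL2Z] at hc
    rw [OnePoint.isBoundedAt_iff_forall_SL2Z hc]
    intro γ _
    rw [sep_eichler_slash hk hh hf γ]
    exact ((hh.slash γ).isZeroAtImInfty_eichler n).isBoundedAtImInfty

/-- Step 5: the Eichler integral vanishes identically. -/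
theorem sep_eichler_eq_zero (N : ℕ) [NeZero N] {k : ℤ} {n : ℕ} (hk : k = n + 2)
    (f : CuspForm (CongruenceSubgroup.Gamma0 N) k)
    (hf : ∀ (Q : ℂ[X]), Q.natDegree ≤ n → ∀ x : ℚ, vint (⇑f) Q (x : ℂ) = 0) (τ : ℍ) :
    eichler n (⇑f) τ = 0 := by
  have hh : Cuspidal k ⇑f := cuspidal_of_cuspForm f
  rcases Nat.eq_zero_or_pos n with hn | hn
  · obtain ⟨Fm, hFm⟩ := sep_exists_modularForm N hk 0 (by simp [hn]) f hf
    obtain ⟨c, hc⟩ := ModularForm.eq_const_of_weight_zero Fm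
    have hz : IsZeroAtImInfty (eichler n ⇑f) := hh.isZeroAtImInfty_eichler n
    rw [← hFm, hc] at hz ⊢
    have : c = 0 := tendsto_nhds_unique tendsto_const_nhds hz
    simp [this]
  · obtain ⟨Fm, hFm⟩ := sep_exists_modularForm N hk (-(n : ℤ)) rfl f hf
    have h0 : Fm = 0 := ModularForm.isZero_of_neg_weight (by simpa using hn) Fm
    rw [← hFm, h0]
    rfl

/-- If all vertical periods `∫_x^{i∞} f(z) z^j dz` (`x ∈ ℚ`, `j ≤ n = k - 2`) of a cusp form `f`
of weight `k` on `Γ₀(N)` vanish, then `f = 0`.  (The Eichler integral of `f` is then a cusp form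
of weight `2 - k ≤ 0`.) -/
theorem separation (N : ℕ) [NeZero N] (k : ℤ) (n : ℕ) (hk : k = n + 2)
    (f : CuspForm (CongruenceSubgroup.Gamma0 N) k)
    (hf : ∀ (x : ℚ) (j : ℕ), j ≤ n → vint (⇑f) (X ^ j) (x : ℂ) = 0) : f = 0 := by
  have hh : Cuspidal k ⇑f := cuspidal_of_cuspForm f
  have hf' : ∀ (Q : ℂ[X]), Q.natDegree ≤ n → ∀ x : ℚ, vint (⇑f) Q (x : ℂ) = 0 :=
    fun Q hQ x => sep_vint_poly_rat_eq_zero hh n hf Q hQ x
  have h0 : (⇑f : ℍ → ℂ) = 0 :=
    hh.eq_zero_of_eichler_eq_zero n (sep_eichler_eq_zero N hk f hf')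
  exact DFunLike.coe_injective h0

end Fermat.Agent.S22
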