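import Fermat.Agent.S22.Manin
import Fermat.Agent.S22.Hecke
import Fermat.Agent.S22.Separation

set_option autoImplicit false

/-!
# Assembly: finiteness of the Hecke algebra from the period lattice
-/

namespace Fermat.Agent.S22

open UpperHalfPlane hiding I
open Complex MeasureTheory Set Filter Polynomial
open scoped MatrixGroups ModularForm Manifold Topology

/-- Abstract criterion: a set of endomorphisms of a complex vector space `V` preserving (by
transposition) a finitely generated subgroup `Λ` of the dual which separates the points of `V`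
generates a `ℤ`-algebra that is finite as a `ℤ`-module. -/
theorem asm_finite_adjoin_of_lattice {V : Type*} [AddCommGroup V] [Module ℂ V]
    (gens : Set (Module.End ℂ V)) (Λ : Submodule ℤ (V →ₗ[ℂ] ℂ)) (hfg : Λ.FG)
    (hstab : ∀ T ∈ gens, ∀ φ ∈ Λ, φ ∘ₗ T ∈ Λ)
    (hsep : ∀ v : V, (∀ φ ∈ Λ, φ v = 0) → v = 0) :
    Module.Finite ℤ (Algebra.adjoin ℤ gens) := by
  classical
  let A : Subalgebra ℤ (Module.End ℂ V) :=
    { carrier := {T | ∀ φ ∈ Λ, φ ∘ₗ T ∈ Λ}
      mul_mem' := by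
        intro T₁ T₂ h₁ h₂ φ hφ
        have := h₂ _ (h₁ φ hφ)
        simpa [LinearMap.comp_assoc, Module.End.mul_eq_comp] using this
      one_mem' := by
        intro φ hφ
        show φ ∘ₗ LinearMap.id ∈ Λ
        rwa [LinearMap.comp_id]
      add_mem' := by
        intro T₁ T₂ h₁ h₂ φ hφ
        rw [LinearMap.comp_add]
        exact Λ.add_mem (h₁ φ hφ) (h₂ φ hφ)
      zero_mem' := by
        intro φ _
        simp
      algebraMap_mem' := by
        intro m φ hφ
        have h1 : φ ∘ₗ (algebraMap ℤ (Module.End ℂ V) m) = m • φ := by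
          ext v
          simp
        rw [h1]
        exact Λ.smul_mem m hφ }
  have hle : Algebra.adjoin ℤ gens ≤ A := Algebra.adjoin_le hstab
  obtain ⟨s, hs⟩ := hfg
  haveI : IsNoetherian ℤ Λ := isNoetherian_of_fg_of_noetherian Λ ⟨s, hs⟩
  let ρ : (Algebra.adjoin ℤ gens) →ₗ[ℤ] (s → Λ) :=
    { toFun := fun T φ => ⟨φ.1 ∘ₗ T.1, hle T.2 φ.1 (hs ▸ Submodule.subset_span φ.2)⟩
      map_add' := by
        intro T₁ T₂
        funext φ
        apply Subtype.ext
        simp [LinearMap.comp_add]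
      map_smul' := by
        intro m T
        funext φ
        apply Subtype.ext
        show φ.1 ∘ₗ (m • T).1 = m • (φ.1 ∘ₗ T.1)
        ext v
        simp }
  have hinj : Function.Injective ρ := by
    rw [← LinearMap.ker_eq_bot, LinearMap.ker_eq_bot']
    intro T hT
    apply Subtype.ext
    have h0 : ∀ φ ∈ s, φ ∘ₗ T.1 = 0 := by
      intro φ hφ
      have := congrFun hT ⟨φ, hφ⟩
      exact congrArg Subtype.val this
    have h1 : ∀ φ ∈ Λ, φ ∘ₗ T.1 = 0 := by
      intro φ hφ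
      rw [← hs] at hφ
      induction hφ using Submodule.span_induction with
      | mem x hx => exact h0 x hx
      | zero => simp
      | add x y _ _ hx hy => rw [LinearMap.add_comp, hx, hy, add_zero]
      | smul a x _ hx => rw [LinearMap.smul_comp, hx, smul_zero]
    ext v
    exact hsep _ (fun φ hφ => by simpa using LinearMap.congr_fun (h1 φ hφ) v)
  exact Module.Finite.of_injective ρ hinj

section Lattice

variable (N : ℕ) [NeZero N] (k : ℤ)

/-- The period functional `f ↦ ∫_x^{i∞} f(z) z^j dz / i`. -/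
noncomputable def asm_perL (x : ℚ) (j : ℕ) :
    CuspForm (CongruenceSubgroup.Gamma0 N) k →ₗ[ℂ] ℂ where
  toFun f := vint (⇑f) (X ^ j) (x : ℂ)
  map_add' f g := by
    show vint (⇑(f + g)) (X ^ j) (x : ℂ) = _
    rw [show (⇑(f + g) : ℍ → ℂ) = ⇑f + ⇑g from rfl]
    exact (cuspidal_of_cuspForm f).vint_add_fun_rat (cuspidal_of_cuspForm g) _ x
  map_smul' c f := by
    show vint (⇑(c • f)) (X ^ j) (x : ℂ) = c * vint (⇑f) (X ^ j) (x : ℂ)
    rw [show (⇑(c • f) : ℍ → ℂ) = c • ⇑f from rfl]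
    exact vint_smul_fun c _ _ _

/-- The functional `f ↦ ∫_0^{i∞} (f∣g)(z) z^j dz / i`. -/
noncomputable def asm_psiL (g : SL(2, ℤ)) (j : ℕ) :
    CuspForm (CongruenceSubgroup.Gamma0 N) k →ₗ[ℂ] ℂ where
  toFun f := vint (⇑f ∣[k] g) (X ^ j) 0
  map_add' f f' := by
    show vint (⇑(f + f') ∣[k] g) (X ^ j) 0 = _
    rw [show (⇑(f + f') : ℍ → ℂ) = ⇑f + ⇑f' from rfl, SlashAction.add_slash]
    have := ((cuspidal_of_cuspForm f).slash g).vint_add_fun_rat
      ((cuspidal_of_cuspForm f').slash g) (X ^ j) 0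
    simpa using this
  map_smul' c f := by
    show vint (⇑(c • f) ∣[k] g) (X ^ j) 0 = c * vint (⇑f ∣[k] g) (X ^ j) 0
    rw [show (⇑(c • f) : ℍ → ℂ) = c • ⇑f from rfl, ModularForm.SL_smul_slash]
    exact vint_smul_fun c _ _ _

/-- The period lattice: all vertical periods at rational cusps against `X^j`, `j ≤ n`. -/
noncomputable def asm_lattice (n : ℕ) :
    Submodule ℤ (CuspForm (CongruenceSubgroup.Gamma0 N) k →ₗ[ℂ] ℂ) :=
  Submodule.span ℤ {φ | ∃ (x : ℚ) (j : ℕ), j ≤ n ∧ φ = asm_perL N k x j}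

/-- The finitely generated lattice of `0`-to-`i∞` periods of translates. -/
noncomputable def asm_latticeFin (n : ℕ) :
    Submodule ℤ (CuspForm (CongruenceSubgroup.Gamma0 N) k →ₗ[ℂ] ℂ) :=
  Submodule.span ℤ {φ | ∃ (g : SL(2, ℤ)) (j : ℕ), j ≤ n ∧ φ = asm_psiL N k g j}

theorem asm_psiL_mul_left (γ : SL(2, ℤ)) (hγ : γ ∈ CongruenceSubgroup.Gamma0 N) (g : SL(2, ℤ))
    (j : ℕ) : asm_psiL N k (γ * g) j = asm_psiL N k g j := by
  ext f
  show vint (⇑f ∣[k] (γ * g)) (X ^ j) 0 = vint (⇑f ∣[k] g) (X ^ j) 0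
  rw [SlashAction.slash_mul]
  congr 2
  exact SlashInvariantFormClass.slash_action_eq f _ (Subgroup.mem_map_of_mem _ hγ)

theorem asm_latticeFin_fg (n : ℕ) : (asm_latticeFin N k n).FG := by
  classical
  apply Submodule.fg_span
  -- the generating set is finite because `g ↦ psiL g j` only depends on the coset `Γ₀(N) g`
  let Γ : Subgroup SL(2, ℤ) := CongruenceSubgroup.Gamma0 N
  let F : ℕ → SL(2, ℤ) ⧸ Γ → (CuspForm (CongruenceSubgroup.Gamma0 N) k →ₗ[ℂ] ℂ) := fun j =>
    Quotient.lift (fun g : SL(2, ℤ) => asm_psiL N k g⁻¹ j) (by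
      intro a b hab
      have hab' : a⁻¹ * b ∈ Γ := QuotientGroup.leftRel_apply.mp hab
      have h1 : a⁻¹ = (a⁻¹ * b) * b⁻¹ := by group
      show asm_psiL N k a⁻¹ j = asm_psiL N k b⁻¹ j
      rw [h1]
      exact asm_psiL_mul_left N k _ hab' _ j)
  have hfin : (⋃ j ∈ Finset.range (n + 1), Set.range (F j)).Finite :=
    Set.Finite.biUnion (Finset.finite_toSet _) (fun j _ => Set.finite_range _)
  refine hfin.subset ?_
  rintro φ ⟨g, j, hj, rfl⟩
  simp only [Set.mem_iUnion, Finset.mem_range, Set.mem_range, exists_prop]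
  refine ⟨j, Nat.lt_succ_of_le hj, (QuotientGroup.mk g⁻¹ : SL(2, ℤ) ⧸ Γ), ?_⟩
  show asm_psiL N k (g⁻¹)⁻¹ j = asm_psiL N k g j
  rw [inv_inv]

/-- Integral list-combinations of the `psiL` lie in the finite lattice. -/
theorem asm_list_mem_latticeFin (n : ℕ) (l : List (ℤ × SL(2, ℤ) × ℕ)) (hl : ∀ t ∈ l, t.2.2 ≤ n) :
    ∃ φ ∈ asm_latticeFin N k n, ∀ f : CuspForm (CongruenceSubgroup.Gamma0 N) k,
      φ f = (l.map fun t => (t.1 : ℂ) * vint (⇑f ∣[k] t.2.1) (X ^ t.2.2) 0).sum := by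
  induction l with
  | nil => exact ⟨0, Submodule.zero_mem _, fun f => by simp⟩
  | cons t l ih =>
    obtain ⟨φ, hφ, hφf⟩ := ih (fun t' ht' => hl t' (List.mem_cons_of_mem _ ht'))
    refine ⟨t.1 • asm_psiL N k t.2.1 t.2.2 + φ, ?_, ?_⟩
    · refine Submodule.add_mem _ (Submodule.smul_mem _ _ (Submodule.subset_span ?_)) hφ
      exact ⟨t.2.1, t.2.2, hl t (List.mem_cons_self), rfl⟩
    · intro f
      rw [List.map_cons, List.sum_cons, ← hφf f]
      simp [asm_psiL]

/-- Integral list-combinations of the `perL` lie in the period lattice. -/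
theorem asm_list_mem_lattice (n : ℕ) (l : List (ℤ × ℚ × ℕ)) (hl : ∀ t ∈ l, t.2.2 ≤ n) :
    ∃ φ ∈ asm_lattice N k n, ∀ f : CuspForm (CongruenceSubgroup.Gamma0 N) k,
      φ f = (l.map fun t => (t.1 : ℂ) * vint (⇑f) (X ^ t.2.2) (t.2.1 : ℂ)).sum := by
  induction l with
  | nil => exact ⟨0, Submodule.zero_mem _, fun f => by simp⟩
  | cons t l ih =>
    obtain ⟨φ, hφ, hφf⟩ := ih (fun t' ht' => hl t' (List.mem_cons_of_mem _ ht'))
    refine ⟨t.1 • asm_perL N k t.2.1 t.2.2 + φ, ?_, ?_⟩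
    · refine Submodule.add_mem _ (Submodule.smul_mem _ _ (Submodule.subset_span ?_)) hφ
      exact ⟨t.2.1, t.2.2, hl t (List.mem_cons_self), rfl⟩
    · intro f
      rw [List.map_cons, List.sum_cons, ← hφf f]
      simp [asm_perL]

theorem asm_lattice_le (n : ℕ) (hk : k = n + 2) : asm_lattice N k n ≤ asm_latticeFin N k n := by
  apply Submodule.span_le.mpr
  rintro φ ⟨x, j, hj, rfl⟩
  obtain ⟨l, hl, hlh⟩ := manin k n hk x (X ^ j) ((natDegree_X_pow_le j).trans hj)
  obtain ⟨φ, hφ, hφf⟩ := asm_list_mem_latticeFin N k n l hl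
  have : asm_perL N k x j = φ := by
    ext f
    rw [hφf f, ← hlh (⇑f) (cuspidal_of_cuspForm f)]
    simp [asm_perL]
  rw [SetLike.mem_coe, this]
  exact hφ

theorem asm_lattice_fg (n : ℕ) (hk : k = n + 2) : (asm_lattice N k n).FG := by
  haveI : IsNoetherian ℤ (asm_latticeFin N k n) :=
    isNoetherian_of_fg_of_noetherian _ (asm_latticeFin_fg N k n)
  haveI : IsNoetherian ℤ (asm_lattice N k n) := isNoetherian_of_le (asm_lattice_le N k n hk)
  exact (Submodule.fg_top _).mp (IsNoetherian.noetherian ⊤)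

theorem asm_integrable (f : CuspForm (CongruenceSubgroup.Gamma0 N) k) (y : ℚ) (Q : ℂ[X]) :
    IntegrableOn (fun t : ℝ => (⇑f : ℍ → ℂ) (ofComplex ((y : ℂ) + t * I)) *
      Q.eval ((y : ℂ) + t * I)) (Ioi 0) :=
  (cuspidal_of_cuspForm f).integrableOn_rat Q y

theorem asm_lattice_stable (n : ℕ) (hk : k = n + 2) (S : Set ℕ)
    (T : Module.End ℂ (CuspForm (CongruenceSubgroup.Gamma0 N) k))
    (hT : T ∈ CuspForm.heckeGenerators N k S) (φ : CuspForm (CongruenceSubgroup.Gamma0 N) k →ₗ[ℂ] ℂ)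
    (hφ : φ ∈ asm_lattice N k n) : φ ∘ₗ T ∈ asm_lattice N k n := by
  induction hφ using Submodule.span_induction with
  | zero => simp
  | add x y _ _ hx hy => rw [LinearMap.add_comp]; exact Submodule.add_mem _ hx hy
  | smul a x _ hx => rw [LinearMap.smul_comp]; exact Submodule.smul_mem _ _ hx
  | mem ψ hψ =>
    obtain ⟨x, j, hj, rfl⟩ := hψ
    have hdeg : (X ^ j : ℤ[X]).natDegree ≤ n := (natDegree_X_pow_le j).trans hj
    rcases hT with ⟨ℓ, hℓ, hℓN, -, rfl⟩ | ⟨q, hqN, hq, -, rfl⟩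
    · obtain ⟨l, hl, hlh⟩ := vint_heckeT k n hk ℓ hℓ.pos x (X ^ j) hdeg
      obtain ⟨ψ, hψ, hψf⟩ := asm_list_mem_lattice N k n l hl
      have : asm_perL N k x j ∘ₗ CuspForm.heckeTLin k hℓ hℓN = ψ := by
        ext f
        rw [hψf f, ← hlh (⇑f) (asm_integrable N k f)]
        simp [asm_perL]
      rw [this]
      exact hψ
    · obtain ⟨l, hl, hlh⟩ := vint_heckeU k n q hq.pos x (X ^ j) hdeg
      obtain ⟨ψ, hψ, hψf⟩ := asm_list_mem_lattice N k n l hl
      have : asm_perL N k x j ∘ₗ CuspForm.heckeULin k hqN = ψ := by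
        ext f
        rw [hψf f, ← hlh (⇑f) (asm_integrable N k f)]
        simp [asm_perL]
      rw [this]
      exact hψ

theorem asm_lattice_separates (n : ℕ) (hk : k = n + 2)
    (f : CuspForm (CongruenceSubgroup.Gamma0 N) k)
    (hf : ∀ φ ∈ asm_lattice N k n, φ f = 0) : f = 0 :=
  separation N k n hk f (fun x j hj => hf _ (Submodule.subset_span ⟨x, j, hj, rfl⟩))

end Lattice

/-- Cusp forms of weight `≤ 1` on `Γ₀(N)` vanish. -/
theorem asm_eq_zero_of_weight_le_one (N : ℕ) [NeZero N] (k : ℤ) (hk : k ≤ 1)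
    (f : CuspForm (CongruenceSubgroup.Gamma0 N) k) : f = 0 := by
  rcases lt_trichotomy k 0 with hneg | rfl | hpos
  · have h := ModularForm.isZero_of_neg_weight hneg (ModularFormClass.modularForm f)
    ext τ
    have := congrArg (fun F : ModularForm _ _ => F τ) h
    simpa using this
  · obtain ⟨c, hc⟩ := ModularForm.eq_const_of_weight_zero (ModularFormClass.modularForm f)
    have hc' : (⇑f : ℍ → ℂ) = Function.const ℍ c := hc
    have hzero : IsZeroAtImInfty (⇑f : ℍ → ℂ) := CuspFormClass.zero_at_infty f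
    have h0 : c = 0 := by
      rw [hc'] at hzero
      exact tendsto_nhds_unique tendsto_const_nhds hzero
    ext τ
    rw [hc', h0]
    rfl
  · have hk1 : k = 1 := by omega
    subst hk1
    have hmem : (-1 : GL (Fin 2) ℝ) ∈
        ((CongruenceSubgroup.Gamma0 N : Subgroup SL(2, ℤ)) : Subgroup (GL (Fin 2) ℝ)) := by
      refine ⟨-1, ?_, ?_⟩
      · simp [CongruenceSubgroup.Gamma0_mem]
      · ext i j
        fin_cases i <;> fin_cases j <;> simp [Matrix.SpecialLinearGroup.mapGL]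
    have h := ModularForm.eq_zero_of_neg_one_mem hmem (by decide : Odd (1 : ℤ))
      (ModularFormClass.modularForm f)
    ext τ
    have := congrArg (fun F : ModularForm _ _ => F τ) h
    simpa using this

/-- The `ℤ`-algebra generated by the Hecke operators on `S_k(Γ₀(N))` is a finite `ℤ`-module. -/
theorem asm_main (N : ℕ) [NeZero N] (k : ℤ) (S : Set ℕ) :
    Module.Finite ℤ (Algebra.adjoin ℤ (CuspForm.heckeGenerators N k S)) := by
  by_cases hk : k ≤ 1
  · refine asm_finite_adjoin_of_lattice _ ⊥ Submodule.fg_bot ?_ ?_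
    · intro T _ φ hφ
      rw [Submodule.mem_bot] at hφ ⊢
      rw [hφ, LinearMap.zero_comp]
    · intro f _
      exact asm_eq_zero_of_weight_le_one N k hk f
  · obtain ⟨n, hn⟩ : ∃ n : ℕ, k = n + 2 := ⟨(k - 2).toNat, by omega⟩
    exact asm_finite_adjoin_of_lattice _ (asm_lattice N k n) (asm_lattice_fg N k n hn)
      (fun T hT φ hφ => asm_lattice_stable N k n hn S T hT φ hφ)
      (asm_lattice_separates N k n hn)

end Fermat.Agent.S22
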