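import Fermat.Agent.S22.Defs

set_option autoImplicit false

/-!
# Basic properties of cuspidal functions and their vertical integrals
-/

namespace Fermat.Agent.S22

open UpperHalfPlane hiding I
open Complex MeasureTheory Set Filter Polynomial
open scoped MatrixGroups ModularForm Manifold Topology

open ConjAct Pointwise Matrix.SpecialLinearGroup in
/-- Cusp forms for arithmetic subgroups are cuspidal. -/
theorem cuspidal_of_cuspForm {Γ : Subgroup (GL (Fin 2) ℝ)} [Γ.IsArithmetic] {k : ℤ}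
    (f : CuspForm Γ k) : Cuspidal k ⇑f := by
  refine ⟨CuspFormClass.holo f, fun g => ?_⟩
  have : ((toConjAct (g : GL (Fin 2) ℝ)⁻¹) • Γ).IsArithmetic := by
    simpa [(show Rat.castHom ℝ = algebraMap ℚ ℝ by rfl), map_inv, map_mapGL]
      using! Subgroup.IsArithmetic.conj Γ (mapGL ℚ g)⁻¹
  obtain ⟨c, hc, hO⟩ :=
    CuspFormClass.exp_decay_atImInfty' (CuspForm.translate f (g : GL (Fin 2) ℝ))
  rw [CuspForm.coe_translate] at hO
  exact ⟨c, hc, hO⟩

theorem Cuspidal.slash {k : ℤ} {h : ℍ → ℂ} (hh : Cuspidal k h) (g : SL(2, ℤ)) :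
    Cuspidal k (h ∣[k] g) := by
  refine ⟨?_, fun g' => ?_⟩
  · exact MDifferentiable.slash hh.1 k (g : GL (Fin 2) ℝ)
  · obtain ⟨c, hc, hO⟩ := hh.2 (g * g')
    exact ⟨c, hc, by rwa [SlashAction.slash_mul] at hO⟩

theorem Cuspidal.differentiableOn_integrand {k : ℤ} {h : ℍ → ℂ} (hh : Cuspidal k h) (Q : ℂ[X]) :
    DifferentiableOn ℂ (fun z : ℂ => h (ofComplex z) * Q.eval z) {z : ℂ | 0 < z.im} := by
  have h1 := UpperHalfPlane.mdifferentiable_iff.mp hh.1
  exact h1.mul (Q.differentiable.differentiableOn)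

/-- A polynomial is bounded by any exponential on a vertical half-strip. -/
theorem bas_poly_bound (Q : ℂ[X]) (R c : ℝ) (hc : 0 < c) :
    ∃ K : ℝ, 0 ≤ K ∧ ∀ z : ℂ, |z.re| ≤ R → 0 ≤ z.im →
      ‖Q.eval z‖ ≤ K * Real.exp (c * z.im) := by
  refine ⟨∑ i ∈ Finset.range (Q.natDegree + 1),
    ‖Q.coeff i‖ * ((i.factorial : ℝ) / c ^ i * Real.exp (c * R)), ?_, ?_⟩
  · positivity
  · intro z hzR hzi
    rw [Polynomial.eval_eq_sum_range, Finset.sum_mul]
    refine (norm_sum_le _ _).trans (Finset.sum_le_sum fun i _ => ?_)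
    rw [norm_mul, norm_pow, mul_assoc]
    refine mul_le_mul_of_nonneg_left ?_ (norm_nonneg _)
    have h1 : ‖z‖ ≤ R + z.im := by
      have := Complex.norm_le_abs_re_add_abs_im z
      rw [abs_of_nonneg hzi] at this
      linarith
    have h0 : 0 ≤ R + z.im := (norm_nonneg z).trans h1
    have h2 : ‖z‖ ^ i ≤ (R + z.im) ^ i := pow_le_pow_left₀ (norm_nonneg _) h1 i
    have h3 := Real.pow_div_factorial_le_exp (c * (R + z.im)) (by positivity) i
    have hfac : (0 : ℝ) < (i.factorial : ℝ) := by exact_mod_cast i.factorial_pos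
    have hci : (0 : ℝ) < c ^ i := by positivity
    have h4 : (R + z.im) ^ i ≤ (i.factorial : ℝ) / c ^ i * Real.exp (c * (R + z.im)) := by
      rw [div_le_iff₀ hfac, mul_pow] at h3
      rw [div_mul_eq_mul_div, le_div_iff₀ hci]
      linarith
    calc ‖z‖ ^ i ≤ (R + z.im) ^ i := h2
      _ ≤ (i.factorial : ℝ) / c ^ i * Real.exp (c * (R + z.im)) := h4
      _ = (i.factorial : ℝ) / c ^ i * Real.exp (c * R) * Real.exp (c * z.im) := by
          rw [mul_add, Real.exp_add, mul_assoc]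

/-- Unpacked exponential decay of a cuspidal function. -/
theorem bas_decay {k : ℤ} {h : ℍ → ℂ} (hh : Cuspidal k h) (g : SL(2, ℤ)) :
    ∃ C c A : ℝ, 0 < c ∧ 0 ≤ C ∧ ∀ τ : ℍ, A ≤ τ.im →
      ‖(h ∣[k] g) τ‖ ≤ C * Real.exp (-c * τ.im) := by
  obtain ⟨c, hc, hO⟩ := hh.2 g
  obtain ⟨C, hC, hCO⟩ := hO.exists_pos
  rw [Asymptotics.IsBigOWith, atImInfty, eventually_comap, eventually_atTop] at hCO
  obtain ⟨A, hA⟩ := hCO
  refine ⟨C, c, A, hc, hC.le, fun τ hτ => ?_⟩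
  have := hA τ.im hτ τ rfl
  rwa [Real.norm_of_nonneg (Real.exp_pos _).le] at this

theorem Cuspidal.stripDecay {k : ℤ} {h : ℍ → ℂ} (hh : Cuspidal k h) (Q : ℂ[X]) (R : ℝ) :
    ∃ C c A : ℝ, 0 < c ∧ ∀ z : ℂ, |z.re| ≤ R → A ≤ z.im →
      ‖h (ofComplex z) * Q.eval z‖ ≤ C * Real.exp (-c * z.im) := by
  obtain ⟨C, c, A, hc, hC, hdec⟩ := bas_decay hh 1
  rw [SlashAction.slash_one] at hdec
  obtain ⟨K, hK, hQ⟩ := bas_poly_bound Q R (c / 2) (by positivity)
  refine ⟨C * K, c / 2, max A 1, by positivity, fun z hzR hzA => ?_⟩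
  have hz1 : 1 ≤ z.im := (le_max_right _ _).trans hzA
  have hzpos : 0 < z.im := by linarith
  have him : (ofComplex z).im = z.im := by
    rw [ofComplex_apply_of_im_pos hzpos]; rfl
  have h1 : ‖h (ofComplex z)‖ ≤ C * Real.exp (-c * z.im) := by
    have := hdec (ofComplex z) (by rw [him]; exact (le_max_left _ _).trans hzA)
    rwa [him] at this
  have h2 := hQ z hzR hzpos.le
  rw [norm_mul]
  calc ‖h (ofComplex z)‖ * ‖Q.eval z‖
      ≤ (C * Real.exp (-c * z.im)) * (K * Real.exp (c / 2 * z.im)) :=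
        mul_le_mul h1 h2 (norm_nonneg _) (by positivity)
    _ = C * K * (Real.exp (-c * z.im) * Real.exp (c / 2 * z.im)) := by ring
    _ = C * K * Real.exp (-(c / 2) * z.im) := by
        rw [← Real.exp_add]; congr 2; ring

theorem bas_continuousOn_line {k : ℤ} {h : ℍ → ℂ} (hh : Cuspidal k h) (Q : ℂ[X]) (z : ℂ) :
    ContinuousOn (fun t : ℝ => h (ofComplex (z + t * I)) * Q.eval (z + t * I))
      {t : ℝ | 0 < z.im + t} := by
  have hc := (hh.differentiableOn_integrand Q).continuousOn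
  have hline : Continuous (fun t : ℝ => z + t * I) := by fun_prop
  refine hc.comp hline.continuousOn (fun t ht => ?_)
  simpa using ht

theorem bas_integrableOn_Ioi {k : ℤ} {h : ℍ → ℂ} (hh : Cuspidal k h) (Q : ℂ[X]) (z : ℂ)
    {a : ℝ} (ha : 0 < z.im + a) :
    IntegrableOn (fun t : ℝ => h (ofComplex (z + t * I)) * Q.eval (z + t * I)) (Ioi a) := by
  obtain ⟨C, c, A, hc, hdec⟩ := hh.stripDecay Q |z.re|
  have hcont : ContinuousOn (fun t : ℝ => h (ofComplex (z + t * I)) * Q.eval (z + t * I))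
      (Ici a) := (bas_continuousOn_line hh Q z).mono (fun t ht => by
        simp only [mem_Ici] at ht
        simp only [mem_ofPred_eq]
        linarith)
  refine integrableOn_Ici_iff_integrableOn_Ioi (by finiteness) |>.mp <|
    (hcont.locallyIntegrableOn measurableSet_Ici).integrableOn_of_isBigO_atTop
      (g := fun t => Real.exp (-c * t)) ?_ ⟨Ioi c, Ioi_mem_atTop c, exp_neg_integrableOn_Ioi c hc⟩
  refine Asymptotics.IsBigO.of_bound (C * Real.exp (-c * z.im)) ?_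
  filter_upwards [eventually_ge_atTop (A - z.im)] with t ht
  have h1 := hdec (z + t * I) (by simp) (by simp; linarith)
  rw [Real.norm_of_nonneg (Real.exp_pos _).le]
  calc ‖h (ofComplex (z + t * I)) * Q.eval (z + t * I)‖
      ≤ C * Real.exp (-c * (z + t * I).im) := h1
    _ = C * Real.exp (-c * z.im) * Real.exp (-c * t) := by
        have him : (z + t * I).im = z.im + t := by simp
        rw [him, mul_add, Real.exp_add, mul_assoc]

theorem bas_zpow_exp_bound (k : ℤ) (c : ℝ) (hc : 0 < c) :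
    ∃ B : ℝ, 0 ≤ B ∧ ∀ v : ℝ, 1 ≤ v → v ^ k * Real.exp (-c * v) ≤ B := by
  refine ⟨(k.toNat.factorial : ℝ) / c ^ k.toNat, by positivity, fun v hv => ?_⟩
  have hv0 : 0 ≤ v := by linarith
  have h1 : v ^ k ≤ v ^ (k.toNat : ℤ) := zpow_le_zpow_right₀ hv (Int.self_le_toNat k)
  rw [zpow_natCast] at h1
  have h3 := Real.pow_div_factorial_le_exp (c * v) (by positivity) k.toNat
  have hfac : (0 : ℝ) < (k.toNat.factorial : ℝ) := by exact_mod_cast k.toNat.factorial_pos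
  have hci : (0 : ℝ) < c ^ k.toNat := by positivity
  have h4 : v ^ k.toNat ≤ (k.toNat.factorial : ℝ) / c ^ k.toNat * Real.exp (c * v) := by
    rw [div_le_iff₀ hfac, mul_pow] at h3
    rw [div_mul_eq_mul_div, le_div_iff₀ hci]
    linarith
  calc v ^ k * Real.exp (-c * v)
      ≤ ((k.toNat.factorial : ℝ) / c ^ k.toNat * Real.exp (c * v)) * Real.exp (-c * v) :=
        mul_le_mul_of_nonneg_right (h1.trans h4) (Real.exp_pos _).le
    _ = (k.toNat.factorial : ℝ) / c ^ k.toNat := by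
        rw [mul_assoc, ← Real.exp_add]; simp

theorem bas_cusp_point (g : SL(2, ℤ)) (hc : 0 < g 1 0) {t : ℝ} (ht : 0 < t) :
    ∃ w : ℍ, w.im = 1 / ((g 1 0 : ℝ) ^ 2 * t) ∧
      ‖denom g w‖ = (g 1 0 : ℝ) * (1 / ((g 1 0 : ℝ) ^ 2 * t)) ∧
      ((g • w : ℍ) : ℂ) = (g 0 0 : ℂ) / (g 1 0 : ℂ) + t * I := by
  have hcR : (0 : ℝ) < (g 1 0 : ℝ) := by exact_mod_cast hc
  have hcC : ((g 1 0 : ℤ) : ℂ) ≠ 0 := by exact_mod_cast hc.ne'
  have htC : (t : ℂ) ≠ 0 := by exact_mod_cast ht.ne'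
  have hu : (0 : ℝ) < 1 / ((g 1 0 : ℝ) ^ 2 * t) := by positivity
  have hdet : (g 0 0 : ℂ) * (g 1 1 : ℂ) - (g 0 1 : ℂ) * (g 1 0 : ℂ) = 1 := by
    have := g.det_coe
    rw [Matrix.det_fin_two] at this
    exact_mod_cast this
  set wc : ℂ := ((-((g 1 1 : ℝ) / (g 1 0 : ℝ)) : ℝ) : ℂ) +
    ((1 / ((g 1 0 : ℝ) ^ 2 * t) : ℝ) : ℂ) * I with hwc
  have hwim : 0 < wc.im := by
    rw [hwc]
    simpa only [add_im, ofReal_im, mul_im, ofReal_re, Complex.I_im, Complex.I_re, mul_one, mul_zero, zero_add,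
      add_zero] using hu
  have hden : denom g (⟨wc, hwim⟩ : ℍ) = (((g 1 0 : ℝ) * (1 / ((g 1 0 : ℝ) ^ 2 * t)) : ℝ) : ℂ) * I := by
    have hden0 : denom g (⟨wc, hwim⟩ : ℍ) = ((g 1 0 : ℤ) : ℂ) * wc + ((g 1 1 : ℤ) : ℂ) := by
      simp [denom]
    rw [hden0, hwc]
    push_cast
    field_simp
    ring
  refine ⟨⟨wc, hwim⟩, ?_, ?_, ?_⟩
  · show wc.im = _
    rw [hwc]
    simp only [add_im, ofReal_im, mul_im, ofReal_re, Complex.I_im, Complex.I_re, mul_one, mul_zero, zero_add,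
      add_zero]
  · rw [hden, norm_mul, Complex.norm_I, mul_one, Complex.norm_real, Real.norm_of_nonneg]
    positivity
  · rw [coe_specialLinearGroup_apply]
    have hden' : ((algebraMap ℤ ℝ (g 1 0) : ℝ) : ℂ) * ((⟨wc, hwim⟩ : ℍ) : ℂ) +
        ((algebraMap ℤ ℝ (g 1 1) : ℝ) : ℂ) = (((g 1 0 : ℝ) * (1 / ((g 1 0 : ℝ) ^ 2 * t)) : ℝ) : ℂ) * I := by
      rw [← hden]; simp [denom]
    rw [hden', div_eq_iff (by
      refine mul_ne_zero ?_ I_ne_zero
      exact_mod_cast (by positivity : (0:ℝ) < (g 1 0 : ℝ) * (1 / ((g 1 0 : ℝ) ^ 2 * t))).ne')]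
    simp only [hwc, algebraMap_int_eq, eq_intCast]
    push_cast
    field_simp
    linear_combination (-(t : ℂ) * (g 1 0 : ℂ) ^ 1) * hdet + (-(t : ℂ) * (g 1 0 : ℂ)) * I_sq

/-- A cuspidal function is bounded on the part of a vertical line just above a rational cusp. -/
theorem bas_bounded_near_cusp {k : ℤ} {h : ℍ → ℂ} (hh : Cuspidal k h) (x : ℚ) :
    ∃ t₀ B : ℝ, 0 < t₀ ∧ ∀ t : ℝ, 0 < t → t ≤ t₀ →
      ‖h (ofComplex ((x : ℂ) + t * I))‖ ≤ B := by
  obtain ⟨g, hg0, hg1⟩ := (Rat.isCoprime_num_den x).exists_SL2_col 0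
  have hcZ : (0 : ℤ) < g 1 0 := by rw [hg1]; exact_mod_cast x.den_pos
  have hcR : (1 : ℝ) ≤ (g 1 0 : ℝ) := by
    rw [hg1]; exact_mod_cast x.den_pos
  have hcR0 : (0 : ℝ) < (g 1 0 : ℝ) := by linarith
  have hx : (x : ℂ) = (g 0 0 : ℂ) / (g 1 0 : ℂ) := by
    rw [hg0, hg1]
    simpa using (Rat.cast_def (K := ℂ) x)
  obtain ⟨C, c₀, A, hc₀, hC, hdec⟩ := bas_decay hh g
  obtain ⟨B, hB, hBv⟩ := bas_zpow_exp_bound k (c₀ / (g 1 0 : ℝ)) (by positivity)
  have hA' : (0 : ℝ) < max A 1 := lt_of_lt_of_le one_pos (le_max_right _ _)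
  refine ⟨1 / ((g 1 0 : ℝ) ^ 2 * max A 1), C * B, by positivity, fun t ht htt => ?_⟩
  obtain ⟨w, hwim, hwden, hwsmul⟩ := bas_cusp_point g hcZ ht
  set u : ℝ := 1 / ((g 1 0 : ℝ) ^ 2 * t) with hu
  have hu_ge : max A 1 ≤ u := by
    rw [hu, le_div_iff₀ (by positivity)]
    rw [le_div_iff₀ (by positivity)] at htt
    linarith
  have hu1 : 1 ≤ u := (le_max_right _ _).trans hu_ge
  have hv1 : 1 ≤ (g 1 0 : ℝ) * u := by nlinarith
  have hpt : ofComplex ((x : ℂ) + t * I) = g • w := by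
    rw [hx, ← hwsmul, ofComplex_apply]
  have hslash : h (g • w) = (h ∣[k] g) w * denom g w ^ k := by
    rw [ModularForm.SL_slash_apply, mul_assoc, ← zpow_add₀ (denom_ne_zero _ w)]
    simp
  rw [hpt, hslash, norm_mul, norm_zpow, hwden]
  have h1 := hdec w (by rw [hwim]; exact (le_max_left _ _).trans hu_ge)
  rw [hwim] at h1
  have h2 := hBv ((g 1 0 : ℝ) * u) hv1
  have h3 : -(c₀ / (g 1 0 : ℝ)) * ((g 1 0 : ℝ) * u) = -c₀ * u := by
    field_simp
  rw [h3] at h2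
  calc ‖(h ∣[k] g) w‖ * ((g 1 0 : ℝ) * u) ^ k
      ≤ (C * Real.exp (-c₀ * u)) * ((g 1 0 : ℝ) * u) ^ k :=
        mul_le_mul_of_nonneg_right h1 (by positivity)
    _ = C * (((g 1 0 : ℝ) * u) ^ k * Real.exp (-c₀ * u)) := by ring
    _ ≤ C * B := mul_le_mul_of_nonneg_left h2 hC

/-- Integrability along vertical rays starting in the upper half plane. -/
theorem Cuspidal.integrableOn_of_im_pos {k : ℤ} {h : ℍ → ℂ} (hh : Cuspidal k h) (Q : ℂ[X])
    {z : ℂ} (hz : 0 < z.im) :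
    IntegrableOn (fun t : ℝ => h (ofComplex (z + t * I)) * Q.eval (z + t * I)) (Ioi 0) :=
  bas_integrableOn_Ioi hh Q z (by simpa using hz)

/-- Integrability along vertical rays starting at a rational cusp. -/
theorem Cuspidal.integrableOn_rat {k : ℤ} {h : ℍ → ℂ} (hh : Cuspidal k h) (Q : ℂ[X]) (x : ℚ) :
    IntegrableOn (fun t : ℝ => h (ofComplex ((x : ℂ) + t * I)) * Q.eval ((x : ℂ) + t * I))
      (Ioi 0) := by
  obtain ⟨t₀, B, ht₀, hB⟩ := bas_bounded_near_cusp hh x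
  obtain ⟨K, hK, hQ⟩ := bas_poly_bound Q |((x : ℝ))| 1 one_pos
  have hxim : ((x : ℂ)).im = 0 := by simp
  have htail := bas_integrableOn_Ioi hh Q (x : ℂ) (a := t₀) (by rw [hxim]; linarith)
  have hcont : ContinuousOn
      (fun t : ℝ => h (ofComplex ((x : ℂ) + t * I)) * Q.eval ((x : ℂ) + t * I)) (Ioc 0 t₀) :=
    (bas_continuousOn_line hh Q (x : ℂ)).mono (fun t ht => by
      simp only [mem_ofPred_eq, hxim]
      linarith [ht.1])
  have hhead : IntegrableOn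
      (fun t : ℝ => h (ofComplex ((x : ℂ) + t * I)) * Q.eval ((x : ℂ) + t * I)) (Ioc 0 t₀) := by
    refine IntegrableOn.of_bound (by simp) (hcont.aestronglyMeasurable measurableSet_Ioc)
      (|B| * (K * Real.exp t₀)) ?_
    refine (ae_restrict_iff' measurableSet_Ioc).mpr (ae_of_all _ fun t ht => ?_)
    rw [norm_mul]
    have h1 := hB t ht.1 ht.2
    have h2 := hQ ((x : ℂ) + t * I) (by simp) (by simp; exact ht.1.le)
    have h3 : Real.exp (1 * ((x : ℂ) + t * I).im) ≤ Real.exp t₀ := by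
      apply Real.exp_le_exp.mpr
      simp
      exact ht.2
    exact mul_le_mul (h1.trans (le_abs_self B)) (h2.trans (mul_le_mul_of_nonneg_left h3 hK))
      (norm_nonneg _) (abs_nonneg B)
  have := hhead.union htail
  rwa [Ioc_union_Ioi_eq_Ioi ht₀.le] at this

/-! ### Linearity of `vint` -/

theorem vint_smul_poly (h : ℍ → ℂ) (a : ℂ) (Q : ℂ[X]) (z : ℂ) :
    vint h (a • Q) z = a * vint h Q z := by
  unfold vint
  rw [← integral_const_mul]
  refine integral_congr_ae (ae_of_all _ fun t => ?_)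
  simp only [eval_smul, smul_eq_mul]
  ring

theorem vint_C_mul_poly (h : ℍ → ℂ) (a : ℂ) (Q : ℂ[X]) (z : ℂ) :
    vint h (C a * Q) z = a * vint h Q z := by
  rw [← smul_eq_C_mul, vint_smul_poly]

theorem vint_smul_fun (a : ℂ) (h : ℍ → ℂ) (Q : ℂ[X]) (z : ℂ) :
    vint (a • h) Q z = a * vint h Q z := by
  unfold vint
  rw [← integral_const_mul]
  refine integral_congr_ae (ae_of_all _ fun t => ?_)
  simp only [Pi.smul_apply, smul_eq_mul]
  ring

theorem vint_zero_poly (h : ℍ → ℂ) (z : ℂ) : vint h 0 z = 0 := by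
  simp [vint]

theorem Cuspidal.vint_add_poly {k : ℤ} {h : ℍ → ℂ} (hh : Cuspidal k h) (Q₁ Q₂ : ℂ[X])
    {z : ℂ} (hz : 0 < z.im) : vint h (Q₁ + Q₂) z = vint h Q₁ z + vint h Q₂ z := by
  unfold vint
  rw [← integral_add (hh.integrableOn_of_im_pos Q₁ hz) (hh.integrableOn_of_im_pos Q₂ hz)]
  refine integral_congr_ae (ae_of_all _ fun t => ?_)
  simp only [eval_add]
  ring

theorem Cuspidal.vint_add_poly_rat {k : ℤ} {h : ℍ → ℂ} (hh : Cuspidal k h) (Q₁ Q₂ : ℂ[X])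
    (x : ℚ) : vint h (Q₁ + Q₂) (x : ℂ) = vint h Q₁ (x : ℂ) + vint h Q₂ (x : ℂ) := by
  unfold vint
  rw [← integral_add (hh.integrableOn_rat Q₁ x) (hh.integrableOn_rat Q₂ x)]
  refine integral_congr_ae (ae_of_all _ fun t => ?_)
  simp only [eval_add]
  ring

theorem Cuspidal.vint_sum_poly {k : ℤ} {h : ℍ → ℂ} (hh : Cuspidal k h) {ι : Type*}
    (s : Finset ι) (Q : ι → ℂ[X]) {z : ℂ} (hz : 0 < z.im) :
    vint h (∑ i ∈ s, Q i) z = ∑ i ∈ s, vint h (Q i) z := by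
  classical
  induction s using Finset.induction_on with
  | empty => simp [vint_zero_poly]
  | insert i s hi ih =>
    rw [Finset.sum_insert hi, Finset.sum_insert hi, hh.vint_add_poly _ _ hz, ih]

theorem Cuspidal.vint_sum_poly_rat {k : ℤ} {h : ℍ → ℂ} (hh : Cuspidal k h) {ι : Type*}
    (s : Finset ι) (Q : ι → ℂ[X]) (x : ℚ) :
    vint h (∑ i ∈ s, Q i) (x : ℂ) = ∑ i ∈ s, vint h (Q i) (x : ℂ) := by
  classical
  induction s using Finset.induction_on with
  | empty => simp [vint_zero_poly]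
  | insert i s hi ih =>
    rw [Finset.sum_insert hi, Finset.sum_insert hi, hh.vint_add_poly_rat, ih]

theorem Cuspidal.vint_add_fun_rat {k : ℤ} {h₁ h₂ : ℍ → ℂ} (hh₁ : Cuspidal k h₁)
    (hh₂ : Cuspidal k h₂) (Q : ℂ[X]) (x : ℚ) :
    vint (h₁ + h₂) Q (x : ℂ) = vint h₁ Q (x : ℂ) + vint h₂ Q (x : ℂ) := by
  unfold vint
  rw [← integral_add (hh₁.integrableOn_rat Q x) (hh₂.integrableOn_rat Q x)]
  refine integral_congr_ae (ae_of_all _ fun t => ?_)
  simp only [Pi.add_apply]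
  ring

end Fermat.Agent.S22
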