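import Mathlib
import Fermat.Prelude.Def_CuspForm_HeckeAlgebra

set_option autoImplicit false

/-!
# Definitions for the period-lattice proof of finiteness of the Hecke algebra

* `Cuspidal k h` : `h : ℍ → ℂ` is holomorphic and every `SL(2,ℤ)`-translate `h ∣[k] g`
  decays exponentially at `i∞`.
* `vint h Q z`   : the vertical integral `∫_0^∞ h(z + i t) Q(z + i t) dt`.
* `polyAct n g Q`: the weight `-n` action of `g` on polynomials of degree `≤ n`,
  `(Q ∣ g)(X) = (cX+d)^n Q((aX+b)/(cX+d))`.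
-/

namespace Fermat.Agent.S22

open UpperHalfPlane hiding I
open Complex MeasureTheory Set Filter Polynomial
open scoped MatrixGroups ModularForm Manifold Topology

/-- A holomorphic function on the upper half plane all of whose weight-`k` translates by
`SL(2,ℤ)` decay exponentially at `i∞`. -/
def Cuspidal (k : ℤ) (h : ℍ → ℂ) : Prop :=
  MDifferentiable 𝓘(ℂ) 𝓘(ℂ) h ∧
    ∀ g : SL(2, ℤ), ∃ c : ℝ, 0 < c ∧
      (h ∣[k] g) =O[atImInfty] fun τ : ℍ => Real.exp (-c * τ.im)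

/-- The vertical integral `∫_0^∞ h(z + i t) Q(z + i t) dt` (for `0 ≤ im z`). -/
noncomputable def vint (h : ℍ → ℂ) (Q : ℂ[X]) (z : ℂ) : ℂ :=
  ∫ t in Ioi (0 : ℝ), h (ofComplex (z + t * I)) * Q.eval (z + t * I)

/-- The action of `g = !![a, b; c, d]` on polynomials of degree `≤ n`:
`(Q ∣ g)(X) = ∑_j q_j (aX+b)^j (cX+d)^(n-j)`. -/
noncomputable def polyAct (n : ℕ) (g : SL(2, ℤ)) (Q : ℂ[X]) : ℂ[X] :=
  ∑ j ∈ Finset.range (n + 1),
    C (Q.coeff j) * (C (g 0 0 : ℂ) * X + C (g 0 1 : ℂ)) ^ j *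
      (C (g 1 0 : ℂ) * X + C (g 1 1 : ℂ)) ^ (n - j)

end Fermat.Agent.S22
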