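import Fermat.Agent.S22.Basics

set_option autoImplicit false

/-!
# Limits of vertical integrals along vertical lines
-/

namespace Fermat.Agent.S22

open UpperHalfPlane hiding I
open Complex MeasureTheory Set Filter Polynomial
open scoped MatrixGroups ModularForm Manifold Topology

/-- Translation of an integral over a half-line. -/
theorem lim_integral_Ioi_shift (G : ℝ → ℂ) (s : ℝ) :
    ∫ t in Ioi (0 : ℝ), G (t + s) = ∫ t in Ioi s, G t := by
  have h1 := (measurePreserving_add_right (volume : Measure ℝ) s).setIntegral_image_emb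
    (MeasurableEquiv.addRight s).measurableEmbedding G (Ioi (0 : ℝ))
  have h2 : (fun t : ℝ => t + s) '' Ioi (0 : ℝ) = Ioi s := by
    rw [image_add_const_Ioi, zero_add]
  rw [h2] at h1
  exact h1.symm

/-- A vertical integral based at `x + s i` is a tail of the vertical integral based at `x`. -/
theorem lim_vint_shift (h : ℍ → ℂ) (Q : ℂ[X]) (x : ℂ) (s : ℝ) :
    vint h Q (x + s * I) =
      ∫ t in Ioi s, h (ofComplex (x + t * I)) * Q.eval (x + t * I) := by
  rw [← lim_integral_Ioi_shift (fun t : ℝ => h (ofComplex (x + t * I)) * Q.eval (x + t * I)) s]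
  unfold vint
  refine setIntegral_congr_fun measurableSet_Ioi fun t _ => ?_
  have e : x + (s : ℂ) * I + (t : ℂ) * I = x + ((t + s : ℝ) : ℂ) * I := by
    push_cast; ring
  simp only [e]

theorem Cuspidal.tendsto_vint_atTop {k : ℤ} {h : ℍ → ℂ} (hh : Cuspidal k h) (Q : ℂ[X]) (x : ℝ) :
    Tendsto (fun T : ℝ => vint h Q ((x : ℂ) + T * I)) atTop (𝓝 0) := by
  have _ := hh
  simp only [lim_vint_shift]
  exact tendsto_integral_Ioi_zero tendsto_id

theorem Cuspidal.tendsto_vint_zero {k : ℤ} {h : ℍ → ℂ} (hh : Cuspidal k h) (Q : ℂ[X]) (x : ℚ) :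
    Tendsto (fun s : ℝ => vint h Q ((x : ℂ) + s * I)) (𝓝[>] 0) (𝓝 (vint h Q (x : ℂ))) := by
  simp only [lim_vint_shift]
  have hF := hh.integrableOn_rat Q x
  have hc := hF.continuousWithinAt_Ici_primitive_Ioi
  exact hc.tendsto.mono_left (nhdsWithin_mono _ Ioi_subset_Ici_self)

end Fermat.Agent.S22
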