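import Mathlib

set_option autoImplicit false

/-!
# Primitives on the upper half plane by vertical integration
-/

namespace Fermat.Agent.S22

open Complex MeasureTheory Set Filter
open scoped Topology

/-- A holomorphic function on the upper half plane which decays exponentially at `i∞` (uniformly on
vertical strips) is bounded by `D * exp (-c * im)` on each half strip `|re - x| ≤ ρ`, `δ ≤ im`. -/
theorem prim_strip_bound (G : ℂ → ℂ)
    (hG : DifferentiableOn ℂ G {z : ℂ | 0 < z.im})
    (hdec : ∀ R : ℝ, ∃ C c A : ℝ, 0 < c ∧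
      ∀ z : ℂ, |z.re| ≤ R → A ≤ z.im → ‖G z‖ ≤ C * Real.exp (-c * z.im))
    (x δ : ℝ) (hδ : 0 < δ) (ρ : ℝ) :
    ∃ D c : ℝ, 0 ≤ D ∧ 0 < c ∧
      ∀ ζ : ℂ, |ζ.re - x| ≤ ρ → δ ≤ ζ.im → ‖G ζ‖ ≤ D * Real.exp (-c * ζ.im) := by
  obtain ⟨C, c, A, hc, hCA⟩ := hdec (|x| + ρ)
  have hK : IsCompact (Icc (x - ρ) (x + ρ) ×ℂ Icc δ (max A δ)) :=
    isCompact_Icc.reProdIm isCompact_Icc
  have hKU : (Icc (x - ρ) (x + ρ) ×ℂ Icc δ (max A δ)) ⊆ {z : ℂ | 0 < z.im} := by
    intro ζ hζ
    have h1 : δ ≤ ζ.im := hζ.2.1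
    have h2 : 0 < ζ.im := lt_of_lt_of_le hδ h1
    exact h2
  obtain ⟨M, hM⟩ := hK.exists_bound_of_continuousOn (hG.continuousOn.mono hKU)
  have hM0 : 0 ≤ max M 0 := le_max_right _ _
  refine ⟨max M 0 * Real.exp (c * max A δ) + |C|, c, by positivity, hc, ?_⟩
  intro ζ hre him
  have hre' := abs_le.mp hre
  have hexp : 0 < Real.exp (-c * ζ.im) := Real.exp_pos _
  rcases le_total ζ.im (max A δ) with h | h
  · have hmem : ζ ∈ Icc (x - ρ) (x + ρ) ×ℂ Icc δ (max A δ) := by
      rw [mem_reProdIm]
      exact ⟨⟨by linarith [hre'.1], by linarith [hre'.2]⟩, him, h⟩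
    have h1 := hM ζ hmem
    have h2 : 1 ≤ Real.exp (c * max A δ) * Real.exp (-c * ζ.im) := by
      rw [← Real.exp_add]
      apply Real.one_le_exp
      have := mul_le_mul_of_nonneg_left h hc.le
      linarith
    have h3 : 0 ≤ |C| * Real.exp (-c * ζ.im) := mul_nonneg (abs_nonneg C) hexp.le
    calc ‖G ζ‖ ≤ max M 0 := h1.trans (le_max_left _ _)
      _ ≤ max M 0 * (Real.exp (c * max A δ) * Real.exp (-c * ζ.im)) :=
          le_mul_of_one_le_right hM0 h2
      _ ≤ (max M 0 * Real.exp (c * max A δ) + |C|) * Real.exp (-c * ζ.im) := by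
          linarith
  · have hreabs : |ζ.re| ≤ |x| + ρ := by
      have h5 : ζ.re = (ζ.re - x) + x := by ring
      rw [h5]
      have := abs_add_le (ζ.re - x) x
      linarith
    have h1 := hCA ζ hreabs ((le_max_left _ _).trans h)
    have h2 : C * Real.exp (-c * ζ.im) ≤ |C| * Real.exp (-c * ζ.im) :=
      mul_le_mul_of_nonneg_right (le_abs_self C) hexp.le
    have h3 : 0 ≤ max M 0 * Real.exp (c * max A δ) * Real.exp (-c * ζ.im) := by positivity
    calc ‖G ζ‖ ≤ |C| * Real.exp (-c * ζ.im) := h1.trans h2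
      _ ≤ (max M 0 * Real.exp (c * max A δ) + |C|) * Real.exp (-c * ζ.im) := by
          linarith

/-- Continuity along vertical rays in the upper half plane. -/
theorem prim_continuousOn_ray (F : ℂ → ℂ) (hF : ContinuousOn F {z : ℂ | 0 < z.im})
    (w : ℂ) (hw : 0 < w.im) :
    ContinuousOn (fun t : ℝ => F (w + t * I)) (Ici 0) := by
  refine hF.comp (by fun_prop) ?_
  intro t ht
  have h0 : (0 : ℝ) ≤ t := ht
  have h1 : (w + (t : ℂ) * I).im = w.im + t := by simp
  have h2 : 0 < (w + (t : ℂ) * I).im := by rw [h1]; linarith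
  exact h2

/-- If `G` is holomorphic on the upper half plane and decays exponentially at `i∞`, uniformly on
vertical strips, then `w ↦ -i ∫_0^∞ G(w + i t) dt` is a primitive of `G`. -/
theorem hasDerivAt_vertical_integral (G : ℂ → ℂ)
    (hG : DifferentiableOn ℂ G {z : ℂ | 0 < z.im})
    (hdec : ∀ R : ℝ, ∃ C c A : ℝ, 0 < c ∧
      ∀ z : ℂ, |z.re| ≤ R → A ≤ z.im → ‖G z‖ ≤ C * Real.exp (-c * z.im))
    {z : ℂ} (hz : 0 < z.im) :
    HasDerivAt (fun w : ℂ => -I * ∫ t in Ioi (0 : ℝ), G (w + t * I)) (G z) z := by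
  have hr0 : 0 < z.im / 4 := by positivity
  obtain ⟨D, c, hD, hc, hb⟩ :=
    prim_strip_bound G hG hdec z.re (z.im / 2) (by positivity) (z.im / 2)
  have hU : IsOpen {z : ℂ | 0 < z.im} := isOpen_lt continuous_const continuous_im
  have hG' : DifferentiableOn ℂ (deriv G) {z : ℂ | 0 < z.im} := hG.deriv hU
  -- the ball of radius `z.im/4` around `z`
  have hball : ∀ w ∈ Metric.ball z (z.im / 4), |w.re - z.re| < z.im / 4 ∧ |w.im - z.im| < z.im / 4 := by
    intro w hw
    rw [Metric.mem_ball, dist_eq_norm] at hw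
    have h1 := abs_re_le_norm (w - z)
    have h2 := abs_im_le_norm (w - z)
    rw [sub_re] at h1
    rw [sub_im] at h2
    exact ⟨lt_of_le_of_lt h1 hw, lt_of_le_of_lt h2 hw⟩
  have hballU : ∀ w ∈ Metric.ball z (z.im / 4), 0 < w.im := by
    intro w hw
    have := abs_lt.mp (hball w hw).2
    linarith [this.1]
  -- integrability of the exponential bound
  have hexpint : ∀ K : ℝ, Integrable (fun t : ℝ => K * Real.exp (-c * t))
      (volume.restrict (Ioi (0 : ℝ))) := by
    intro K
    exact (integrableOn_exp_mul_Ioi (neg_lt_zero.mpr hc) 0).const_mul K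
  -- pointwise bound of `G` on the ray from `z`
  have hGray : ∀ t : ℝ, 0 ≤ t → ‖G (z + t * I)‖ ≤ D * Real.exp (-c * t) := by
    intro t ht
    have h1 : (z + (t : ℂ) * I).im = z.im + t := by simp
    have h2 : (z + (t : ℂ) * I).re = z.re := by simp
    have h3 := hb (z + t * I) (by rw [h2]; simp; positivity) (by rw [h1]; linarith)
    refine h3.trans ?_
    apply mul_le_mul_of_nonneg_left _ hD
    apply Real.exp_le_exp.mpr
    rw [h1]
    nlinarith
  have hmeasG : ∀ w : ℂ, 0 < w.im →
      AEStronglyMeasurable (fun t : ℝ => G (w + t * I)) (volume.restrict (Ioi (0 : ℝ))) := by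
    intro w hw
    exact ((prim_continuousOn_ray G hG.continuousOn w hw).mono Ioi_subset_Ici_self).aestronglyMeasurable
      measurableSet_Ioi
  have hmeasG' : AEStronglyMeasurable (fun t : ℝ => deriv G (z + t * I))
      (volume.restrict (Ioi (0 : ℝ))) :=
    ((prim_continuousOn_ray (deriv G) hG'.continuousOn z hz).mono
      Ioi_subset_Ici_self).aestronglyMeasurable measurableSet_Ioi
  have hGint : Integrable (fun t : ℝ => G (z + t * I)) (volume.restrict (Ioi (0 : ℝ))) := by
    refine (hexpint D).mono' (hmeasG z hz) ?_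
    rw [ae_restrict_iff' measurableSet_Ioi]
    exact Filter.Eventually.of_forall fun t ht => hGray t (le_of_lt ht)
  -- Cauchy estimate
  have hcauchy : ∀ t : ℝ, 0 < t → ∀ w ∈ Metric.ball z (z.im / 4),
      ‖deriv G (w + t * I)‖ ≤ D / (z.im / 4) * Real.exp (-c * t) := by
    intro t ht w hw
    obtain ⟨hw1, hw2⟩ := hball w hw
    have hw1' := abs_lt.mp hw1
    have hw2' := abs_lt.mp hw2
    have hsub : Metric.closedBall (w + t * I) (z.im / 4) ⊆ {z : ℂ | 0 < z.im} := by
      intro ζ hζ
      rw [Metric.mem_closedBall, dist_eq_norm] at hζ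
      have h2 := (abs_le.mp ((abs_im_le_norm (ζ - (w + t * I))).trans hζ)).1
      have h3 : (ζ - (w + (t : ℂ) * I)).im = ζ.im - w.im - t := by simp; ring
      rw [h3] at h2
      have h4 : 0 < ζ.im := by linarith [hw2'.1]
      exact h4
    have hd : DiffContOnCl ℂ G (Metric.ball (w + t * I) (z.im / 4)) := by
      refine (hG.mono ?_).diffContOnCl
      rw [closure_ball _ hr0.ne']
      exact hsub
    have h := Complex.norm_deriv_le_of_forall_mem_sphere_norm_le (C := D * Real.exp (-c * t)) hr0 hd ?_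
    · rw [div_mul_eq_mul_div]
      exact h
    · intro ζ hζ
      rw [mem_sphere_iff_norm] at hζ
      have h1 := (abs_le.mp ((abs_re_le_norm (ζ - (w + t * I))).trans hζ.le))
      have h2 := (abs_le.mp ((abs_im_le_norm (ζ - (w + t * I))).trans hζ.le))
      have h3 : (ζ - (w + (t : ℂ) * I)).im = ζ.im - w.im - t := by simp; ring
      have h4 : (ζ - (w + (t : ℂ) * I)).re = ζ.re - w.re := by simp
      rw [h3] at h2
      rw [h4] at h1
      have h5 := hb ζ (abs_le.mpr ⟨by linarith [hw1'.1, h1.1], by linarith [hw1'.2, h1.2]⟩)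
        (by linarith [hw2'.1, h2.1])
      refine h5.trans ?_
      apply mul_le_mul_of_nonneg_left _ hD
      apply Real.exp_le_exp.mpr
      have h6 : t ≤ ζ.im := by linarith [hw2'.1, h2.1]
      nlinarith
  have key := hasDerivAt_integral_of_dominated_loc_of_deriv_le
    (μ := volume.restrict (Ioi (0 : ℝ)))
    (F := fun (w : ℂ) (t : ℝ) => G (w + t * I))
    (F' := fun (w : ℂ) (t : ℝ) => deriv G (w + t * I))
    (x₀ := z) (bound := fun t => D / (z.im / 4) * Real.exp (-c * t))
    (s := Metric.ball z (z.im / 4)) (Metric.ball_mem_nhds z hr0)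
    (by
      filter_upwards [Metric.ball_mem_nhds z hr0] with w hw
      exact hmeasG w (hballU w hw))
    hGint hmeasG'
    (by
      rw [ae_restrict_iff' measurableSet_Ioi]
      exact Filter.Eventually.of_forall fun t ht w hw => hcauchy t ht w hw)
    (hexpint _)
    (by
      rw [ae_restrict_iff' measurableSet_Ioi]
      refine Filter.Eventually.of_forall fun t ht w hw => ?_
      have ht0 : (0 : ℝ) < t := ht
      have hmem : w + (t : ℂ) * I ∈ {z : ℂ | 0 < z.im} := by
        have h1 : (w + (t : ℂ) * I).im = w.im + t := by simp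
        have h2 : 0 < (w + (t : ℂ) * I).im := by rw [h1]; linarith [hballU w hw]
        exact h2
      have h1 : HasDerivAt G (deriv G (w + t * I)) (w + t * I) :=
        (hG.differentiableAt (hU.mem_nhds hmem)).hasDerivAt
      have h2 : HasDerivAt (fun v : ℂ => v + (t : ℂ) * I) 1 w := (hasDerivAt_id w).add_const _
      have h3 := h1.comp w h2
      rw [mul_one] at h3
      exact h3)
  obtain ⟨hint', hder⟩ := key
  -- evaluate the integral of the derivative along the ray
  have hval : ∫ t in Ioi (0 : ℝ), deriv G (z + t * I) * I = 0 - G (z + (0 : ℝ) * I) := by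
    refine integral_Ioi_of_hasDerivAt_of_tendsto' (f := fun t : ℝ => G (z + t * I)) ?_ ?_ ?_
    · intro t ht
      have ht0 : (0 : ℝ) ≤ t := ht
      have hmem : z + (t : ℂ) * I ∈ {z : ℂ | 0 < z.im} := by
        have h1 : (z + (t : ℂ) * I).im = z.im + t := by simp
        have h2 : 0 < (z + (t : ℂ) * I).im := by rw [h1]; linarith
        exact h2
      have h1 : HasDerivAt G (deriv G (z + t * I)) (z + t * I) :=
        (hG.differentiableAt (hU.mem_nhds hmem)).hasDerivAt
      have h2 : HasDerivAt (fun s : ℝ => z + (s : ℂ) * I) I t := by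
        have := ((hasDerivAt_id t).ofReal_comp.mul_const I).const_add z
        simpa using this
      exact h1.comp t h2
    · exact hint'.mul_const I
    · rw [tendsto_zero_iff_norm_tendsto_zero]
      have hlim : Tendsto (fun t : ℝ => D * Real.exp (-c * t)) atTop (𝓝 0) := by
        have h1 : Tendsto (fun t : ℝ => -c * t) atTop atBot := by
          simpa using (tendsto_id.const_mul_atTop_of_neg (neg_lt_zero.mpr hc))
        have := (Real.tendsto_exp_atBot.comp h1).const_mul D
        simpa using this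
      refine squeeze_zero' (Filter.Eventually.of_forall fun t => norm_nonneg _) ?_ hlim
      filter_upwards [Filter.eventually_ge_atTop (0 : ℝ)] with t ht
      exact hGray t ht
  have hval2 : ∫ t in Ioi (0 : ℝ), deriv G (z + t * I) = I * G z := by
    have h1 : (∫ t in Ioi (0 : ℝ), deriv G (z + t * I)) * I = - G z := by
      rw [← integral_mul_const, hval]
      simp
    have h2 : ∫ t in Ioi (0 : ℝ), deriv G (z + t * I)
        = -((∫ t in Ioi (0 : ℝ), deriv G (z + t * I)) * I) * I := by
      rw [neg_mul, mul_assoc, I_mul_I]; ring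
    rw [h2, h1]; ring
  have hfin := hder.const_mul (-I)
  rw [hval2] at hfin
  have h3 : -I * (I * G z) = G z := by
    rw [← mul_assoc, neg_mul, I_mul_I]; ring
  rw [h3] at hfin
  exact hfin

end Fermat.Agent.S22
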