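import Fermat.Agent.S22.Basics
import Fermat.Agent.S22.Primitive
import Fermat.Agent.S22.Limits

set_option autoImplicit false

namespace Fermat.Agent.S22

open UpperHalfPlane hiding I
open Complex MeasureTheory Set Filter Polynomial
open scoped MatrixGroups ModularForm Manifold Topology

/-- `z ↦ vint h Q z` is holomorphic on the upper half plane with derivative `i · h(z) Q(z)`. -/
theorem Cuspidal.hasDerivAt_vint {k : ℤ} {h : ℍ → ℂ} (hh : Cuspidal k h) (Q : ℂ[X])
    {z : ℂ} (hz : 0 < z.im) :
    HasDerivAt (vint h Q) (I * (h (ofComplex z) * Q.eval z)) z := by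
  have h1 := hasDerivAt_vertical_integral (fun z : ℂ => h (ofComplex z) * Q.eval z)
    (hh.differentiableOn_integrand Q) (hh.stripDecay Q) hz
  have h2 := h1.const_mul I
  have h3 : (fun w : ℂ => I * (-I * ∫ t in Ioi (0 : ℝ),
      (fun z : ℂ => h (ofComplex z) * Q.eval z) (w + t * I))) = vint h Q := by
    funext w
    simp only [vint]
    rw [← mul_assoc]
    simp
  rw [h3] at h2
  exact h2

end Fermat.Agent.S22
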