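import Fermat.Agent.S22.ThreeTerm

set_option autoImplicit false

/-!
# Manin's continued fraction trick
-/

namespace Fermat.Agent.S22

open UpperHalfPlane hiding I
open Complex MeasureTheory Set Filter Polynomial
open scoped MatrixGroups ModularForm Manifold Topology

/-- Integral version of `polyAct`. -/
noncomputable def manin_polyActZ (n : ℕ) (g : SL(2, ℤ)) (P : ℤ[X]) : ℤ[X] :=
  ∑ j ∈ Finset.range (n + 1),
    C (P.coeff j) * (C (g 0 0) * X + C (g 0 1)) ^ j * (C (g 1 0) * X + C (g 1 1)) ^ (n - j)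

theorem manin_polyActZ_map (n : ℕ) (g : SL(2, ℤ)) (P : ℤ[X]) :
    (manin_polyActZ n g P).map (Int.castRingHom ℂ) = polyAct n g (P.map (Int.castRingHom ℂ)) := by
  unfold manin_polyActZ polyAct
  rw [Polynomial.map_sum]
  refine Finset.sum_congr rfl fun j _ => ?_
  simp only [Polynomial.map_mul, Polynomial.map_pow, Polynomial.map_add, Polynomial.map_C,
    Polynomial.map_X, Polynomial.coeff_map, eq_intCast (Int.castRingHom ℂ)]

/-- Finset sums over `range` as list sums. -/
theorem manin_sum_range_eq_list_sum (f : ℕ → ℂ) (m : ℕ) :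
    ∑ j ∈ Finset.range m, f j = ((List.range m).map f).sum := by
  induction m with
  | zero => simp
  | succ m ih =>
    rw [Finset.sum_range_succ, List.range_succ, List.map_append, List.sum_append, ih]
    simp

/-- Expansion of a `0`-to-`i∞` period of an integral polynomial in monomial periods. -/
theorem manin_expand {k : ℤ} {h : ℍ → ℂ} (hh : Cuspidal k h) (n : ℕ) (R : ℂ[X])
    (hR : R.natDegree ≤ n) :
    vint h R 0 = ∑ j ∈ Finset.range (n + 1), R.coeff j * vint h (X ^ j) 0 := by
  have h1 : R = ∑ j ∈ Finset.range (n + 1), C (R.coeff j) * X ^ j :=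
    R.as_sum_range_C_mul_X_pow' (Nat.lt_succ_of_le hR)
  have h2 := hh.vint_sum_poly_rat (Finset.range (n + 1)) (fun j => C (R.coeff j) * X ^ j) 0
  rw [Rat.cast_zero] at h2
  conv_lhs => rw [h1]
  rw [h2]
  refine Finset.sum_congr rfl fun j _ => ?_
  rw [vint_C_mul_poly]

/-- The "tail" term of Manin's trick as a list sum. -/
theorem manin_tail (k : ℤ) (n : ℕ) (g : SL(2, ℤ)) (P : ℤ[X]) :
    ∃ l : List (ℤ × SL(2, ℤ) × ℕ), (∀ t ∈ l, t.2.2 ≤ n) ∧
      ∀ h : ℍ → ℂ, Cuspidal k h →
        - vint (h ∣[k] g) (polyAct n g (P.map (Int.castRingHom ℂ))) 0 =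
          (l.map fun t => (t.1 : ℂ) * vint (h ∣[k] t.2.1) (X ^ t.2.2) 0).sum := by
  refine ⟨(List.range (n + 1)).map (fun j => (-(manin_polyActZ n g P).coeff j, g, j)), ?_, ?_⟩
  · intro t ht
    rw [List.mem_map] at ht
    obtain ⟨j, hj, rfl⟩ := ht
    rw [List.mem_range] at hj
    exact Nat.le_of_lt_succ hj
  · intro h hh
    rw [manin_expand (hh.slash g) n _ (natDegree_polyAct_le n g _), ← Finset.sum_neg_distrib,
      manin_sum_range_eq_list_sum, List.map_map]
    congr 1
    refine List.map_congr_left fun j _ => ?_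
    simp only [Function.comp_apply]
    rw [← manin_polyActZ_map, Polynomial.coeff_map, eq_intCast]
    push_cast
    ring

theorem manin_bezout (a c : ℤ) (hc : 2 ≤ c) (h : IsCoprime a c) :
    ∃ b d : ℤ, a * d - b * c = 1 ∧ 0 < d ∧ d < c := by
  obtain ⟨u, v, huv⟩ := h
  have hcpos : 0 < c := by omega
  have hd0 : 0 ≤ u % c := Int.emod_nonneg _ hcpos.ne'
  have hd1 : u % c < c := Int.emod_lt_of_pos _ hcpos
  have hmod := Int.emod_add_mul_ediv u c
  have hb : a * (u % c) - 1 = c * (-(a * (u / c)) - v) := by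
    linear_combination a * hmod + huv
  refine ⟨-(a * (u / c)) - v, u % c, by linarith, ?_, hd1⟩
  rcases hd0.lt_or_eq with h | h
  · exact h
  · exfalso
    rw [← h] at hb
    have h1 : c ∣ 1 := ⟨-(-(a * (u / c)) - v), by linarith⟩
    have := Int.le_of_dvd one_pos h1
    omega

theorem manin_aux (k : ℤ) (n : ℕ) (hk : k = n + 2) (P : ℤ[X]) (hP : P.natDegree ≤ n) (m : ℕ) :
    ∀ x : ℚ, x.den ≤ m →
    ∃ l : List (ℤ × SL(2, ℤ) × ℕ), (∀ t ∈ l, t.2.2 ≤ n) ∧
      ∀ h : ℍ → ℂ, Cuspidal k h →
        vint h (P.map (Int.castRingHom ℂ)) (x : ℂ) =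
          (l.map fun t => (t.1 : ℂ) * vint (h ∣[k] t.2.1) (X ^ t.2.2) 0).sum := by
  have hPC : (P.map (Int.castRingHom ℂ)).natDegree ≤ n := (natDegree_map_le).trans hP
  induction m with
  | zero =>
    intro x hx
    exact absurd hx (by have := x.den_pos; omega)
  | succ m ih =>
    intro x hx
    have hden : 0 < x.den := x.den_pos
    by_cases h1 : x.den = 1
    · -- integral cusp
      let g : SL(2, ℤ) := ⟨!![x.num, -1; 1, 0], by simp [Matrix.det_fin_two_of]⟩
      obtain ⟨l, hl, hl'⟩ := manin_tail k n g P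
      refine ⟨l, hl, fun h hh => ?_⟩
      have h2 := hh.two_term hk g rfl _ hPC
      have hx' : (((g 0 0 : ℤ) : ℚ) / ((g 1 0 : ℤ) : ℚ) : ℚ) = x := by
        have e0 : g 0 0 = x.num := rfl
        have e1 : g 1 0 = 1 := rfl
        rw [e0, e1]
        have := Rat.num_div_den x
        rw [h1] at this
        simpa using this
      rw [hx'] at h2
      rw [← hl' h hh, ← h2, neg_neg]
    · -- denominator at least 2
      have hc2 : (2 : ℤ) ≤ (x.den : ℤ) := by omega
      have hcop : IsCoprime x.num (x.den : ℤ) := by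
        rw [Int.isCoprime_iff_gcd_eq_one]
        simpa [Int.gcd] using x.reduced
      obtain ⟨b, d, hdet, hd0, hdc⟩ := manin_bezout x.num x.den hc2 hcop
      let g : SL(2, ℤ) := ⟨!![x.num, b; (x.den : ℤ), d], by
        rw [Matrix.det_fin_two_of]; exact hdet⟩
      have e00 : g 0 0 = x.num := rfl
      have e01 : g 0 1 = b := rfl
      have e10 : g 1 0 = (x.den : ℤ) := rfl
      have e11 : g 1 1 = d := rfl
      have hden' : ((b : ℚ) / (d : ℚ)).den ≤ m := by
        have hdvd : (((b : ℚ) / (d : ℚ)).den : ℤ) ∣ d := by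
          rw [← Rat.divInt_eq_div]
          exact Rat.den_dvd b d
        have hle := Int.le_of_dvd hd0 hdvd
        omega
      obtain ⟨l₁, hl₁, hl₁'⟩ := ih ((b : ℚ) / (d : ℚ)) hden'
      obtain ⟨l, hl, hl'⟩ := manin_tail k n g P
      refine ⟨l₁ ++ l, ?_, fun h hh => ?_⟩
      · intro t ht
        rcases List.mem_append.mp ht with ht | ht
        · exact hl₁ t ht
        · exact hl t ht
      · have h3 := hh.three_term hk g (by rw [e10]; omega) (by rw [e11]; omega) _ hPC
        rw [e00, e01, e10, e11] at h3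
        have hx' : ((x.num : ℚ) / (((x.den : ℕ) : ℤ) : ℚ) : ℚ) = x := by
          simpa using Rat.num_div_den x
        rw [hx'] at h3
        rw [List.map_append, List.sum_append, ← hl₁' h hh, ← hl' h hh, ← h3]
        ring

/-- **Manin's trick.** Every vertical period of an integral polynomial of degree `≤ n` at a
rational cusp `x` is an integral linear combination, independent of the cuspidal function `h`, of
the `0`-to-`i∞` periods of monomials `X^j` (`j ≤ n`) against the translates `h ∣[k] g`. -/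
theorem manin (k : ℤ) (n : ℕ) (hk : k = n + 2) (x : ℚ) (P : ℤ[X]) (hP : P.natDegree ≤ n) :
    ∃ l : List (ℤ × SL(2, ℤ) × ℕ), (∀ t ∈ l, t.2.2 ≤ n) ∧
      ∀ h : ℍ → ℂ, Cuspidal k h →
        vint h (P.map (Int.castRingHom ℂ)) (x : ℂ) =
          (l.map fun t => (t.1 : ℂ) * vint (h ∣[k] t.2.1) (X ^ t.2.2) 0).sum :=
  manin_aux k n hk P hP x.den x le_rfl

end Fermat.Agent.S22
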