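import Fermat.Agent.S22.Deriv

set_option autoImplicit false

/-!
# Behaviour of vertical integrals under `SL(2,ℤ)`; the three-term relation
-/

namespace Fermat.Agent.S22

open UpperHalfPlane hiding I
open Complex MeasureTheory Set Filter Polynomial
open scoped MatrixGroups ModularForm Manifold Topology

theorem moeb_denom (g : SL(2, ℤ)) (w : ℍ) :
    denom g w = (g 1 0 : ℂ) * w + (g 1 1 : ℂ) := by
  rw [ModularGroup.denom_apply]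

theorem moeb_coe_smul (g : SL(2, ℤ)) (w : ℍ) :
    ((g • w : ℍ) : ℂ) = ((g 0 0 : ℂ) * w + (g 0 1 : ℂ)) / ((g 1 0 : ℂ) * w + (g 1 1 : ℂ)) := by
  rw [UpperHalfPlane.coe_specialLinearGroup_apply]
  simp

theorem moeb_natDegree_lin (a b : ℂ) : (C a * X + C b : ℂ[X]).natDegree ≤ 1 := by
  exact natDegree_linear_le

theorem natDegree_polyAct_le (n : ℕ) (g : SL(2, ℤ)) (Q : ℂ[X]) : (polyAct n g Q).natDegree ≤ n := by
  unfold polyAct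
  apply Polynomial.natDegree_sum_le_of_forall_le
  intro j hj
  have hj' : j ≤ n := Nat.lt_succ_iff.mp (Finset.mem_range.mp hj)
  refine (Polynomial.natDegree_mul_le).trans ?_
  have h1 : (C (Q.coeff j) * (C (g 0 0 : ℂ) * X + C (g 0 1 : ℂ)) ^ j).natDegree ≤ j := by
    refine (Polynomial.natDegree_C_mul_le _ _).trans ?_
    refine (Polynomial.natDegree_pow_le).trans ?_
    have := moeb_natDegree_lin (g 0 0 : ℂ) (g 0 1 : ℂ)
    nlinarith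
  have h2 : ((C (g 1 0 : ℂ) * X + C (g 1 1 : ℂ)) ^ (n - j)).natDegree ≤ n - j := by
    refine (Polynomial.natDegree_pow_le).trans ?_
    have := moeb_natDegree_lin (g 1 0 : ℂ) (g 1 1 : ℂ)
    nlinarith
  omega

/-- `(Q ∣ g)(w) = (c w + d)^n Q(g w)`. -/
theorem polyAct_eval (n : ℕ) (g : SL(2, ℤ)) (Q : ℂ[X]) (hQ : Q.natDegree ≤ n) (w : ℍ) :
    (polyAct n g Q).eval (w : ℂ) = denom g w ^ n * Q.eval ((g • w : ℍ) : ℂ) := by
  have hd : (g 1 0 : ℂ) * w + (g 1 1 : ℂ) ≠ 0 := by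
    rw [← moeb_denom]; exact denom_ne_zero g w
  rw [Polynomial.eval_eq_sum_range' (Nat.lt_succ_of_le hQ), moeb_coe_smul, moeb_denom, polyAct,
    Polynomial.eval_finsetSum, Finset.mul_sum]
  refine Finset.sum_congr rfl fun j hj => ?_
  have hj' : j ≤ n := Nat.lt_succ_iff.mp (Finset.mem_range.mp hj)
  obtain ⟨m, rfl⟩ := Nat.exists_eq_add_of_le hj'
  simp only [eval_mul, eval_C, eval_pow, eval_add, eval_X, Nat.add_sub_cancel_left]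
  generalize (g 1 0 : ℂ) * w + (g 1 1 : ℂ) = D at hd ⊢
  generalize (g 0 0 : ℂ) * w + (g 0 1 : ℂ) = N
  rw [div_pow, pow_add]
  field_simp

theorem moeb_integrand {k : ℤ} {n : ℕ} (hk : k = n + 2) (h : ℍ → ℂ) (g : SL(2, ℤ)) (Q : ℂ[X])
    (hQ : Q.natDegree ≤ n) (τ : ℍ) :
    (h ∣[k] g) τ * (polyAct n g Q).eval (τ : ℂ) =
      h (g • τ) * Q.eval ((g • τ : ℍ) : ℂ) * (denom g τ ^ 2)⁻¹ := by
  rw [ModularForm.SL_slash_apply, polyAct_eval n g Q hQ, hk]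
  have hd := denom_ne_zero g τ
  generalize denom g τ = D at hd ⊢
  rw [zpow_neg, show ((n : ℤ) + 2) = ((n + 2 : ℕ) : ℤ) by push_cast; rfl, zpow_natCast, pow_add]
  field_simp

theorem moeb_hasDerivAt (a b c d : ℂ) (hdet : a * d - b * c = 1) {z : ℂ} (hz : c * z + d ≠ 0) :
    HasDerivAt (fun z : ℂ => (a * z + b) / (c * z + d)) (((c * z + d) ^ 2)⁻¹) z := by
  have h1 : HasDerivAt (fun z : ℂ => a * z + b) a z := by
    simpa using ((hasDerivAt_id z).const_mul a).add_const b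
  have h2 : HasDerivAt (fun z : ℂ => c * z + d) c z := by
    simpa using ((hasDerivAt_id z).const_mul c).add_const d
  have h3 := h1.div h2 hz
  have e : (a * (c * z + d) - (a * z + b) * c) / (c * z + d) ^ 2 = ((c * z + d) ^ 2)⁻¹ := by
    have e1 : a * (c * z + d) - (a * z + b) * c = 1 := by linear_combination hdet
    rw [e1, one_div]
  rw [e] at h3
  exact h3

theorem moeb_det (g : SL(2, ℤ)) :
    (g 0 0 : ℂ) * (g 1 1 : ℂ) - (g 0 1 : ℂ) * (g 1 0 : ℂ) = 1 := by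
  have h := g.det_coe
  rw [Matrix.det_fin_two] at h
  exact_mod_cast h

/-- The auxiliary function whose derivative vanishes on the upper half plane. -/
noncomputable def moeb_phi (k : ℤ) (n : ℕ) (h : ℍ → ℂ) (g : SL(2, ℤ)) (Q : ℂ[X]) (z : ℂ) : ℂ :=
  vint h Q (((g 0 0 : ℂ) * z + (g 0 1 : ℂ)) / ((g 1 0 : ℂ) * z + (g 1 1 : ℂ))) -
    vint (h ∣[k] g) (polyAct n g Q) z

theorem moeb_phi_hasDerivAt {k : ℤ} {n : ℕ} (hk : k = n + 2) {h : ℍ → ℂ} (hh : Cuspidal k h)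
    (g : SL(2, ℤ)) (Q : ℂ[X]) (hQ : Q.natDegree ≤ n) {z : ℂ} (hz : 0 < z.im) :
    HasDerivAt (moeb_phi k n h g Q) 0 z := by
  set τ : ℍ := ⟨z, hz⟩ with hτ
  have hτz : (τ : ℂ) = z := rfl
  have hoc : ofComplex z = τ := ofComplex_apply_of_im_pos hz
  have hm : ((g 0 0 : ℂ) * z + (g 0 1 : ℂ)) / ((g 1 0 : ℂ) * z + (g 1 1 : ℂ)) =
      ((g • τ : ℍ) : ℂ) := by rw [moeb_coe_smul]
  have hD : (g 1 0 : ℂ) * z + (g 1 1 : ℂ) = denom g τ := by rw [moeb_denom]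
  have hD0 : (g 1 0 : ℂ) * z + (g 1 1 : ℂ) ≠ 0 := by rw [hD]; exact denom_ne_zero g τ
  have h1 : HasDerivAt (vint h Q)
      (I * (h (ofComplex ((g • τ : ℍ) : ℂ)) * Q.eval ((g • τ : ℍ) : ℂ)))
      (((g 0 0 : ℂ) * z + (g 0 1 : ℂ)) / ((g 1 0 : ℂ) * z + (g 1 1 : ℂ))) := by
    rw [hm]; exact hh.hasDerivAt_vint Q (g • τ).im_pos
  have h2 := (hh.slash g).hasDerivAt_vint (polyAct n g Q) hz
  have h3 := moeb_hasDerivAt (g 0 0 : ℂ) (g 0 1 : ℂ) (g 1 0 : ℂ) (g 1 1 : ℂ) (moeb_det g) hD0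
  have h4 := (h1.comp z h3).sub h2
  have h5 : I * (h (ofComplex ((g • τ : ℍ) : ℂ)) * Q.eval ((g • τ : ℍ) : ℂ)) *
      (((g 1 0 : ℂ) * z + (g 1 1 : ℂ)) ^ 2)⁻¹ -
      I * ((h ∣[k] g) (ofComplex z) * (polyAct n g Q).eval z) = 0 := by
    rw [hoc, ofComplex_apply, hD]
    have := moeb_integrand hk h g Q hQ τ
    rw [hτz] at this
    rw [this]
    ring
  rw [h5] at h4
  exact h4

theorem moeb_phi_const {k : ℤ} {n : ℕ} (hk : k = n + 2) {h : ℍ → ℂ} (hh : Cuspidal k h)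
    (g : SL(2, ℤ)) (Q : ℂ[X]) (hQ : Q.natDegree ≤ n) {z₁ z₂ : ℂ} (hz₁ : 0 < z₁.im)
    (hz₂ : 0 < z₂.im) : moeb_phi k n h g Q z₁ = moeb_phi k n h g Q z₂ := by
  have hU : IsOpen {z : ℂ | 0 < z.im} := isOpen_lt continuous_const Complex.continuous_im
  have hU' : IsPreconnected {z : ℂ | 0 < z.im} := (convex_halfSpace_im_gt 0).isPreconnected
  exact hU.is_const_of_deriv_eq_zero hU'
    (fun z hz => (moeb_phi_hasDerivAt hk hh g Q hQ hz).differentiableAt.differentiableWithinAt)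
    (fun z hz => (moeb_phi_hasDerivAt hk hh g Q hQ hz).deriv) hz₁ hz₂

theorem moeb_ray_algebra (a b c d : ℂ) (hdet : a * d - b * c = 1) (hc : c ≠ 0) (t : ℂ)
    (ht : t ≠ 0) :
    (a * (-d / c + t * I) + b) / (c * (-d / c + t * I) + d) = a / c + (c ^ 2 * t)⁻¹ * I := by
  have hb : b = (a * d - 1) / c := by
    field_simp
    linear_combination (-1 : ℂ) * hdet
  have hD : c * (-d / c + t * I) + d = c * t * I := by
    field_simp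
    ring
  have hD0 : c * t * I ≠ 0 := mul_ne_zero (mul_ne_zero hc ht) I_ne_zero
  rw [hD, div_eq_iff hD0, hb]
  field_simp
  ring_nf
  simp only [I_sq]
  ring

/-- Transformation of the vertical integral under `g ∈ SL(2,ℤ)` with `c ≠ 0`:
`∫_{g w}^{i∞} h Q = ∫_w^{i∞} (h∣g)(Q∣g) + ∫_{a/c}^{i∞} h Q`. -/
theorem Cuspidal.vint_smul {k : ℤ} {n : ℕ} (hk : k = n + 2) {h : ℍ → ℂ} (hh : Cuspidal k h)
    (g : SL(2, ℤ)) (hc : g 1 0 ≠ 0) (Q : ℂ[X]) (hQ : Q.natDegree ≤ n) (w : ℍ) :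
    vint h Q ((g • w : ℍ) : ℂ) =
      vint (h ∣[k] g) (polyAct n g Q) (w : ℂ) +
        vint h Q ((((g 0 0 : ℤ) : ℚ) / ((g 1 0 : ℤ) : ℚ) : ℚ) : ℂ) := by
  have hcR : ((g 1 0 : ℤ) : ℝ) ≠ 0 := by exact_mod_cast hc
  have hcC : ((g 1 0 : ℤ) : ℂ) ≠ 0 := by exact_mod_cast hc
  have key : ∀ t : ℝ, 0 < t → moeb_phi k n h g Q (w : ℂ) =
      vint h Q (((((g 0 0 : ℤ) : ℚ) / ((g 1 0 : ℤ) : ℚ) : ℚ) : ℂ) +
        (((((g 1 0 : ℤ) : ℝ) ^ 2 * t)⁻¹ : ℝ) : ℂ) * I) -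
      vint (h ∣[k] g) (polyAct n g Q)
        (((-((g 1 1 : ℤ) : ℝ) / ((g 1 0 : ℤ) : ℝ) : ℝ) : ℂ) + (t : ℂ) * I) := by
    intro t ht
    have hz : 0 < ((((-((g 1 1 : ℤ) : ℝ) / ((g 1 0 : ℤ) : ℝ) : ℝ) : ℂ) + (t : ℂ) * I)).im := by
      simpa using ht
    have htC : (t : ℂ) ≠ 0 := by exact_mod_cast ht.ne'
    rw [moeb_phi_const hk hh g Q hQ w.im_pos hz]
    unfold moeb_phi
    congr 2
    push_cast
    exact moeb_ray_algebra _ _ _ _ (moeb_det g) hcC _ htC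
  have h1 : Tendsto (fun t : ℝ => (((g 1 0 : ℤ) : ℝ) ^ 2 * t)⁻¹) atTop (𝓝[>] 0) :=
    tendsto_inv_atTop_nhdsGT_zero.comp (tendsto_id.const_mul_atTop (by positivity))
  have h2 := (hh.tendsto_vint_zero Q (((g 0 0 : ℤ) : ℚ) / ((g 1 0 : ℤ) : ℚ))).comp h1
  have h3 := (hh.slash g).tendsto_vint_atTop (polyAct n g Q)
    (-((g 1 1 : ℤ) : ℝ) / ((g 1 0 : ℤ) : ℝ))
  have h4 := h2.sub h3
  have h5 : Tendsto (fun _ : ℝ => moeb_phi k n h g Q (w : ℂ)) atTop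
      (𝓝 (vint h Q ((((g 0 0 : ℤ) : ℚ) / ((g 1 0 : ℤ) : ℚ) : ℚ) : ℂ) - 0)) := by
    refine h4.congr' ?_
    filter_upwards [eventually_gt_atTop 0] with t ht
    exact (key t ht).symm
  have h6 := tendsto_nhds_unique h5 tendsto_const_nhds
  unfold moeb_phi at h6
  rw [← moeb_coe_smul] at h6
  linear_combination (-1 : ℂ) * h6

theorem moeb_im_pos (w : ℍ) {t : ℝ} (ht : 0 < t) : 0 < ((w : ℂ) + t * I).im := by
  have h1 : ((w : ℂ) + t * I).im = w.im + t := by simp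
  rw [h1]
  exact add_pos w.im_pos ht

/-- Transformation of the vertical integral under `g ∈ SL(2,ℤ)` with `c = 0`. -/
theorem Cuspidal.vint_smul_of_c_eq_zero {k : ℤ} {n : ℕ} (hk : k = n + 2) {h : ℍ → ℂ}
    (hh : Cuspidal k h) (g : SL(2, ℤ)) (hc : g 1 0 = 0) (Q : ℂ[X]) (hQ : Q.natDegree ≤ n)
    (w : ℍ) :
    vint h Q ((g • w : ℍ) : ℂ) = vint (h ∣[k] g) (polyAct n g Q) (w : ℂ) := by
  have _ := hh
  have had : g 0 0 = 1 ∧ g 1 1 = 1 ∨ g 0 0 = -1 ∧ g 1 1 = -1 := by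
    have hdet := g.det_coe
    rw [Matrix.det_fin_two, hc, mul_zero, sub_zero] at hdet
    exact Int.eq_one_or_neg_one_of_mul_eq_one' hdet
  unfold vint
  refine MeasureTheory.setIntegral_congr_fun measurableSet_Ioi (fun t ht => ?_)
  have ht' : (0 : ℝ) < t := ht
  have him : 0 < ((w : ℂ) + t * I).im := moeb_im_pos w ht'
  set τ : ℍ := ⟨(w : ℂ) + t * I, him⟩ with hτ
  have hτc : (τ : ℂ) = (w : ℂ) + t * I := rfl
  have hoc : ofComplex ((w : ℂ) + t * I) = τ := ofComplex_apply_of_im_pos him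
  have hgτ : ((g • w : ℍ) : ℂ) + t * I = ((g • τ : ℍ) : ℂ) := by
    rw [moeb_coe_smul, moeb_coe_smul, hτc, hc]
    rcases had with ⟨ha, hd⟩ | ⟨ha, hd⟩ <;> rw [ha, hd] <;> push_cast <;> ring
  have hden : denom g τ ^ 2 = 1 := by
    rw [moeb_denom, hc]
    rcases had with ⟨ha, hd⟩ | ⟨ha, hd⟩ <;> rw [hd] <;> push_cast <;> ring
  change h (ofComplex (((g • w : ℍ) : ℂ) + t * I)) * Q.eval (((g • w : ℍ) : ℂ) + t * I) =
    (h ∣[k] g) (ofComplex ((w : ℂ) + t * I)) * (polyAct n g Q).eval ((w : ℂ) + t * I)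
  rw [hoc, ← hτc, moeb_integrand hk h g Q hQ τ, hden, hgτ, ofComplex_apply, inv_one, mul_one]

theorem moeb_denom_mul (g g' : SL(2, ℤ)) (τ : ℍ) :
    denom (g * g' : SL(2, ℤ)) τ = denom g ((g' • τ : ℍ) : ℂ) * denom g' τ := by
  have hd : (g' 1 0 : ℂ) * τ + (g' 1 1 : ℂ) ≠ 0 := by
    rw [← moeb_denom]; exact denom_ne_zero g' τ
  rw [moeb_denom, moeb_denom, moeb_denom, moeb_coe_smul, Matrix.SpecialLinearGroup.coe_mul]
  simp only [Matrix.mul_apply, Fin.sum_univ_two]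
  push_cast
  field_simp
  ring

theorem moeb_vint_congr_poly (F : ℍ → ℂ) (P P' : ℂ[X])
    (hP : ∀ τ : ℍ, P.eval (τ : ℂ) = P'.eval (τ : ℂ)) (w : ℍ) : vint F P (w : ℂ) = vint F P' (w : ℂ) := by
  unfold vint
  refine MeasureTheory.setIntegral_congr_fun measurableSet_Ioi (fun t ht => ?_)
  have ht' : (0 : ℝ) < t := ht
  have him : 0 < ((w : ℂ) + t * I).im := moeb_im_pos w ht'
  have := hP ⟨(w : ℂ) + t * I, him⟩
  change P.eval ((w : ℂ) + t * I) = P'.eval ((w : ℂ) + t * I) at this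
  change F (ofComplex ((w : ℂ) + t * I)) * P.eval ((w : ℂ) + t * I) =
    F (ofComplex ((w : ℂ) + t * I)) * P'.eval ((w : ℂ) + t * I)
  rw [this]

theorem moeb_polyAct_mul_eval (n : ℕ) (g g' : SL(2, ℤ)) (Q : ℂ[X]) (hQ : Q.natDegree ≤ n)
    (τ : ℍ) :
    (polyAct n g' (polyAct n g Q)).eval (τ : ℂ) = (polyAct n (g * g') Q).eval (τ : ℂ) := by
  rw [polyAct_eval n g' _ (natDegree_polyAct_le n g Q), polyAct_eval n g Q hQ,
    polyAct_eval n (g * g') Q hQ, moeb_denom_mul, mul_smul]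
  ring

/-- The three-term relation: `∫_{b/d}^{i∞} h Q - ∫_{a/c}^{i∞} h Q = ∫_0^{i∞} (h∣g)(Q∣g)`. -/
theorem moeb_three_term {k : ℤ} {n : ℕ} (hk : k = n + 2) {h : ℍ → ℂ} (hh : Cuspidal k h)
    (g : SL(2, ℤ)) (hc : g 1 0 ≠ 0) (hd : g 1 1 ≠ 0) (Q : ℂ[X]) (hQ : Q.natDegree ≤ n) :
    vint h Q ((((g 0 1 : ℤ) : ℚ) / ((g 1 1 : ℤ) : ℚ) : ℚ) : ℂ) -
        vint h Q ((((g 0 0 : ℤ) : ℚ) / ((g 1 0 : ℤ) : ℚ) : ℚ) : ℂ) =
      vint (h ∣[k] g) (polyAct n g Q) 0 := by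
  have hS00 : (ModularGroup.S : SL(2, ℤ)) 0 0 = 0 := by simp [ModularGroup.S]
  have hS10 : (ModularGroup.S : SL(2, ℤ)) 1 0 = 1 := by simp [ModularGroup.S]
  have hgS00 : (g * ModularGroup.S : SL(2, ℤ)) 0 0 = g 0 1 := by
    rw [Matrix.SpecialLinearGroup.coe_mul, ModularGroup.coe_S]
    simp [Matrix.mul_apply, Fin.sum_univ_two]
  have hgS10 : (g * ModularGroup.S : SL(2, ℤ)) 1 0 = g 1 1 := by
    rw [Matrix.SpecialLinearGroup.coe_mul, ModularGroup.coe_S]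
    simp [Matrix.mul_apply, Fin.sum_univ_two]
  let w : ℍ := UpperHalfPlane.I
  have e1 := hh.vint_smul hk (g * ModularGroup.S) (by rw [hgS10]; exact hd) Q hQ w
  have e2 := (hh.slash g).vint_smul hk ModularGroup.S (by rw [hS10]; exact one_ne_zero)
    (polyAct n g Q) (natDegree_polyAct_le n g Q) w
  have e3 := hh.vint_smul hk g hc Q hQ (ModularGroup.S • w)
  rw [hgS00, hgS10, mul_smul] at e1
  rw [hS00, hS10, ← SlashAction.slash_mul,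
    moeb_vint_congr_poly _ _ _ (moeb_polyAct_mul_eval n g ModularGroup.S Q hQ) w] at e2
  have e0 : ((((0 : ℤ) : ℚ) / ((1 : ℤ) : ℚ) : ℚ) : ℂ) = 0 := by simp
  rw [e0] at e2
  linear_combination e3 - e1 + e2

theorem moeb_ray_algebra2 (a b c : ℂ) (hbc : b * c = -1) (hc : c ≠ 0) (s : ℂ) (hs : s ≠ 0) :
    (a * (0 + s * I) + b) / (c * (0 + s * I) + 0) = a / c + ((c ^ 2)⁻¹ * s⁻¹) * I := by
  have hb : b = -1 / c := by
    field_simp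
    exact hbc
  have hD0 : c * (0 + s * I) + 0 ≠ 0 := by
    rw [zero_add, add_zero]
    exact mul_ne_zero hc (mul_ne_zero hs I_ne_zero)
  rw [div_eq_iff hD0, hb]
  field_simp
  ring_nf
  simp only [I_sq]
  ring

/-- The two-term relation (case `d = 0`): `- ∫_{a/c}^{i∞} h Q = ∫_0^{i∞} (h∣g)(Q∣g)`. -/
theorem moeb_two_term {k : ℤ} {n : ℕ} (hk : k = n + 2) {h : ℍ → ℂ} (hh : Cuspidal k h)
    (g : SL(2, ℤ)) (hd : g 1 1 = 0) (Q : ℂ[X]) (hQ : Q.natDegree ≤ n) :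
    - vint h Q ((((g 0 0 : ℤ) : ℚ) / ((g 1 0 : ℤ) : ℚ) : ℚ) : ℂ) =
      vint (h ∣[k] g) (polyAct n g Q) 0 := by
  have hbc : g 0 1 * g 1 0 = -1 := by
    have hdet := g.det_coe
    rw [Matrix.det_fin_two, hd, mul_zero, zero_sub] at hdet
    linarith
  have hc : g 1 0 ≠ 0 := by
    intro h0
    rw [h0] at hbc
    simp at hbc
  have hcC : ((g 1 0 : ℤ) : ℂ) ≠ 0 := by exact_mod_cast hc
  have hbcC : ((g 0 1 : ℤ) : ℂ) * ((g 1 0 : ℤ) : ℂ) = -1 := by exact_mod_cast hbc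
  have key : ∀ s : ℝ, 0 < s →
      vint h Q ((((((g 0 0 : ℤ) : ℚ) / ((g 1 0 : ℤ) : ℚ) : ℚ) : ℝ) : ℂ) +
        ((((((g 1 0 : ℤ) : ℝ) ^ 2)⁻¹ * s⁻¹ : ℝ)) : ℂ) * I) =
      vint (h ∣[k] g) (polyAct n g Q) (((0 : ℚ) : ℂ) + (s : ℂ) * I) +
        vint h Q ((((g 0 0 : ℤ) : ℚ) / ((g 1 0 : ℤ) : ℚ) : ℚ) : ℂ) := by
    intro s hs
    have hsC : (s : ℂ) ≠ 0 := by exact_mod_cast hs.ne'
    have him : 0 < (((0 : ℚ) : ℂ) + (s : ℂ) * I).im := by simpa using hs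
    have e := hh.vint_smul hk g hc Q hQ ⟨((0 : ℚ) : ℂ) + (s : ℂ) * I, him⟩
    rw [moeb_coe_smul] at e
    rw [← e]
    congr 1
    change _ = (((g 0 0 : ℤ) : ℂ) * (((0 : ℚ) : ℂ) + (s : ℂ) * I) + ((g 0 1 : ℤ) : ℂ)) /
      (((g 1 0 : ℤ) : ℂ) * (((0 : ℚ) : ℂ) + (s : ℂ) * I) + ((g 1 1 : ℤ) : ℂ))
    rw [hd]
    push_cast
    exact (moeb_ray_algebra2 _ _ _ hbcC hcC _ hsC).symm
  have h1 : Tendsto (fun s : ℝ => (((g 1 0 : ℤ) : ℝ) ^ 2)⁻¹ * s⁻¹) (𝓝[>] 0) atTop :=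
    tendsto_inv_nhdsGT_zero.const_mul_atTop (by positivity)
  have h2 := (hh.tendsto_vint_atTop Q ((((g 0 0 : ℤ) : ℚ) / ((g 1 0 : ℤ) : ℚ) : ℚ) : ℝ)).comp h1
  have h3 := (hh.slash g).tendsto_vint_zero (polyAct n g Q) 0
  have h4 : Tendsto (fun s : ℝ => vint (h ∣[k] g) (polyAct n g Q) (((0 : ℚ) : ℂ) + (s : ℂ) * I) +
      vint h Q ((((g 0 0 : ℤ) : ℚ) / ((g 1 0 : ℤ) : ℚ) : ℚ) : ℂ)) (𝓝[>] 0) (𝓝 0) := by
    refine h2.congr' ?_
    filter_upwards [self_mem_nhdsWithin] with s hs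
    exact key s hs
  have h5 := h3.add_const (vint h Q ((((g 0 0 : ℤ) : ℚ) / ((g 1 0 : ℤ) : ℚ) : ℚ) : ℂ))
  have h6 := tendsto_nhds_unique h4 h5
  have e0 : ((0 : ℚ) : ℂ) = 0 := by simp
  rw [e0] at h6
  linear_combination h6


end Fermat.Agent.S22
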