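import Fermat.Agent.S22.Moebius

set_option autoImplicit false

/-!
# The three-term and two-term relations for vertical periods
-/

namespace Fermat.Agent.S22

open UpperHalfPlane hiding I
open Complex MeasureTheory Set Filter Polynomial
open scoped MatrixGroups ModularForm Manifold Topology

/-- The three-term relation: `∫_{b/d}^{i∞} h Q - ∫_{a/c}^{i∞} h Q = ∫_0^{i∞} (h∣g)(Q∣g)`. -/
theorem Cuspidal.three_term {k : ℤ} {n : ℕ} (hk : k = n + 2) {h : ℍ → ℂ} (hh : Cuspidal k h)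
    (g : SL(2, ℤ)) (hc : g 1 0 ≠ 0) (hd : g 1 1 ≠ 0) (Q : ℂ[X]) (hQ : Q.natDegree ≤ n) :
    vint h Q ((((g 0 1 : ℤ) : ℚ) / ((g 1 1 : ℤ) : ℚ) : ℚ) : ℂ) -
        vint h Q ((((g 0 0 : ℤ) : ℚ) / ((g 1 0 : ℤ) : ℚ) : ℚ) : ℂ) =
      vint (h ∣[k] g) (polyAct n g Q) 0 :=
  moeb_three_term hk hh g hc hd Q hQ

/-- The two-term relation (case `d = 0`): `- ∫_{a/c}^{i∞} h Q = ∫_0^{i∞} (h∣g)(Q∣g)`. -/
theorem Cuspidal.two_term {k : ℤ} {n : ℕ} (hk : k = n + 2) {h : ℍ → ℂ} (hh : Cuspidal k h)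
    (g : SL(2, ℤ)) (hd : g 1 1 = 0) (Q : ℂ[X]) (hQ : Q.natDegree ≤ n) :
    - vint h Q ((((g 0 0 : ℤ) : ℚ) / ((g 1 0 : ℤ) : ℚ) : ℚ) : ℂ) =
      vint (h ∣[k] g) (polyAct n g Q) 0 :=
  moeb_two_term hk hh g hd Q hQ

end Fermat.Agent.S22
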